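import Mathlib

/-!
# Program C (S36), node A12 (C-GENUS-K), file 1: eigen-projections of a Kummer extension

`E/κ` a field extension with a `κ`-basis `1, u, …, u^(n-1)`, `k` a subfield of `κ` containing a
primitive `n`-th root of unity `ζ`, and `σ ∈ Aut(E/κ)` with `σ u = ζ u`.  For every `k`-subspace
`V ⊆ E` stable under `σ` and every `y ∈ V` the components `(b.repr y l) • u^l` of `y` lie in `V`
(`repr_smul_pow_mem`).  Mathlib only.
-/

set_option autoImplicit false
set_option linter.unusedSectionVars false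

noncomputable section

namespace Fermat.Agent.BR3.KummerGenus

open Finset

variable {k κ E : Type*} [Field k] [Field κ] [Field E] [Algebra k κ] [Algebra k E] [Algebra κ E]
  [IsScalarTower k κ E]

/-- A Kummer presentation of `E/κ` of degree `n` over the constant field `k`. -/
structure KummerDatum (k κ E : Type*) [Field k] [Field κ] [Field E] [Algebra k κ] [Algebra k E]
    [Algebra κ E] (n : ℕ) where
  /-- the Kummer generator -/
  u : E
  /-- its `n`-th power -/
  δ : κ
  hδ : δ ≠ 0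
  hu : u ^ n = algebraMap κ E δ
  /-- the power basis -/
  b : Module.Basis (Fin n) κ E
  hb : ∀ l : Fin n, b l = u ^ (l : ℕ)
  /-- a primitive `n`-th root of unity in the constant field -/
  ζ : k
  hζ : IsPrimitiveRoot ζ n
  /-- the generator of the Galois group -/
  σ : E ≃ₐ[κ] E
  hσ : σ u = algebraMap k E ζ * u

namespace KummerDatum

variable {n : ℕ} (X : KummerDatum k κ E n)

theorem u_ne_zero (hn : 0 < n) : X.u ≠ 0 := by
  intro h
  have h1 := X.hu
  rw [h, zero_pow hn.ne'] at h1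
  exact X.hδ ((map_eq_zero (algebraMap κ E)).mp h1.symm)

theorem sigma_pow_u (j : ℕ) : (X.σ ^ j) X.u = algebraMap k E (X.ζ ^ j) * X.u := by
  induction j with
  | zero => simp
  | succ j ih =>
    rw [pow_succ', AlgEquiv.mul_apply, ih, map_mul, X.hσ]
    have hfix : X.σ (algebraMap k E (X.ζ ^ j)) = algebraMap k E (X.ζ ^ j) := by
      rw [IsScalarTower.algebraMap_apply k κ E, X.σ.commutes]
    rw [hfix, pow_succ, map_mul]
    ring

/-- `σ^j (g u^m) = ζ^(jm) g u^m`. -/
theorem sigma_pow_apply (j m : ℕ) (g : κ) :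
    (X.σ ^ j) (algebraMap κ E g * X.u ^ m) =
      algebraMap k E (X.ζ ^ (j * m)) * (algebraMap κ E g * X.u ^ m) := by
  rw [map_mul, map_pow, X.sigma_pow_u, (X.σ ^ j).commutes, mul_pow, ← map_pow, ← pow_mul]
  ring

/-- The eigen-projection `P_l = n⁻¹ Σ_{j<n} ζ^(-jl) σ^j`. -/
def proj (l : ℕ) (y : E) : E :=
  algebraMap k E ((n : k)⁻¹) *
    ∑ j ∈ range n, algebraMap k E ((X.ζ ^ (j * l))⁻¹) * (X.σ ^ j) y

theorem proj_add (l : ℕ) (y z : E) : X.proj l (y + z) = X.proj l y + X.proj l z := by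
  unfold proj
  rw [← mul_add, ← sum_add_distrib]
  congr 1
  refine sum_congr rfl fun j _ => ?_
  rw [map_add, mul_add]

theorem proj_sum {ι : Type*} (s : Finset ι) (l : ℕ) (f : ι → E) :
    X.proj l (∑ i ∈ s, f i) = ∑ i ∈ s, X.proj l (f i) := by
  classical
  induction s using Finset.induction_on with
  | empty => simp [proj]
  | insert a s ha ih => rw [sum_insert ha, sum_insert ha, proj_add, ih]

/-- Orthogonality of the characters of `ℤ/n`. -/
theorem sum_zeta_pow (hn : 0 < n) {l m : ℕ} (hl : l < n) (hm : m < n) :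
    ∑ j ∈ range n, (X.ζ ^ (j * l))⁻¹ * X.ζ ^ (j * m) = if m = l then (n : k) else 0 := by
  have hζ0 : X.ζ ≠ 0 := X.hζ.ne_zero hn.ne'
  split_ifs with h
  · subst h
    rw [sum_congr rfl fun j _ => inv_mul_cancel₀ (pow_ne_zero _ hζ0)]
    simp
  · -- geometric sum of `ξ = ζ^m / ζ^l ≠ 1`, `ξ^n = 1`
    set ξ : k := (X.ζ ^ l)⁻¹ * X.ζ ^ m with hξ
    have hterm : ∀ j ∈ range n, (X.ζ ^ (j * l))⁻¹ * X.ζ ^ (j * m) = ξ ^ j := by
      intro j _
      rw [hξ, mul_pow, inv_pow, ← pow_mul, ← pow_mul, mul_comm l j, mul_comm m j]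
    rw [sum_congr rfl hterm]
    have hξn : ξ ^ n = 1 := by
      rw [hξ, mul_pow, inv_pow, ← pow_mul, ← pow_mul, mul_comm l n, mul_comm m n, pow_mul, pow_mul,
        X.hζ.pow_eq_one, one_pow, one_pow, inv_one, one_mul]
    have hξ1 : ξ ≠ 1 := by
      intro h1
      have h2 : X.ζ ^ m = X.ζ ^ l := by
        have := congrArg (fun t => X.ζ ^ l * t) h1
        simp only [hξ, mul_one] at this
        rwa [← mul_assoc, mul_inv_cancel₀ (pow_ne_zero _ hζ0), one_mul] at this
      exact h (X.hζ.pow_inj hm hl h2)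
    have hgeom := mul_geom_sum ξ n
    rw [hξn, sub_self] at hgeom
    rcases mul_eq_zero.mp hgeom with h0 | h0
    · exact absurd (sub_eq_zero.mp h0) hξ1
    · exact h0

theorem proj_basis (hn : 0 < n) (hnk : (n : k) ≠ 0) {l m : ℕ} (hl : l < n) (hm : m < n) (g : κ) :
    X.proj l (algebraMap κ E g * X.u ^ m) =
      if m = l then algebraMap κ E g * X.u ^ m else 0 := by
  unfold proj
  have h1 : ∀ j ∈ range n, algebraMap k E ((X.ζ ^ (j * l))⁻¹) *
      (X.σ ^ j) (algebraMap κ E g * X.u ^ m) =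
      algebraMap k E ((X.ζ ^ (j * l))⁻¹ * X.ζ ^ (j * m)) * (algebraMap κ E g * X.u ^ m) := by
    intro j _
    rw [X.sigma_pow_apply, map_mul]
    ring
  rw [sum_congr rfl h1, ← sum_mul, ← map_sum, X.sum_zeta_pow hn hl hm]
  split_ifs with h
  · rw [← mul_assoc, ← map_mul, inv_mul_cancel₀ hnk, map_one, one_mul]
  · rw [map_zero, zero_mul, mul_zero]

/-- **The eigen-components.** `P_l y = (b.repr y l) u^l`. -/
theorem proj_eq (hn : 0 < n) (hnk : (n : k) ≠ 0) (y : E) (l : Fin n) :
    X.proj l y = algebraMap κ E (X.b.repr y l) * X.u ^ (l : ℕ) := by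
  conv_lhs => rw [← X.b.sum_repr y]
  rw [proj_sum]
  have h1 : ∀ m ∈ (univ : Finset (Fin n)), X.proj l (X.b.repr y m • X.b m) =
      if m = l then algebraMap κ E (X.b.repr y l) * X.u ^ (l : ℕ) else 0 := by
    intro m _
    rw [X.hb m, Algebra.smul_def, X.proj_basis hn hnk l.2 m.2]
    by_cases h : m = l
    · subst h
      simp
    · rw [if_neg h, if_neg (fun h' => h (Fin.ext h'))]
  rw [sum_congr rfl h1, sum_ite_eq' univ l]
  simp

/-- A `k`-subspace stable under `σ` contains the eigen-components of its elements. -/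
theorem repr_smul_pow_mem (hn : 0 < n) (hnk : (n : k) ≠ 0) (V : Submodule k E)
    (hV : ∀ y ∈ V, X.σ y ∈ V) {y : E} (hy : y ∈ V) (l : Fin n) :
    algebraMap κ E (X.b.repr y l) * X.u ^ (l : ℕ) ∈ V := by
  rw [← X.proj_eq hn hnk y l]
  have hpow : ∀ j : ℕ, (X.σ ^ j) y ∈ V := by
    intro j
    induction j with
    | zero => simpa using hy
    | succ j ih =>
      rw [pow_succ', AlgEquiv.mul_apply]
      exact hV _ ih
  unfold proj
  rw [← Algebra.smul_def]
  refine V.smul_mem _ (V.sum_mem fun j _ => ?_)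
  rw [← Algebra.smul_def]
  exact V.smul_mem _ (hpow j)

end KummerDatum

end Fermat.Agent.BR3.KummerGenus
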