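import Mathlib
import Fermat.Prelude.Def_AlgebraicCurve_DivisorPushPull
import Fermat.Prelude.Def_AlgebraicCurve_Repartitions
import Fermat.Agent.Red.FFLemmas
import Fermat.Agent.BR3.KummerGenus.Proj

/-!
# Program C (S36), node A12 (C-GENUS-K), file 2: `L_E(π^* D) ↪ ⊕_l L_κ(D + ⌊l·div δ / n⌋)`

`E/κ` function fields over `k` with a Kummer presentation `X : KummerDatum k κ E n`.

* `apply_mem_pullback` : `L_E(π^* D)` is stable under `Aut(E/κ)`;
* `floorDiv X l`       : the divisor `⌊l · div δ / n⌋` of `κ`;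
* `repr_mem`           : `y ∈ L_E(π^* D) ⇒ b.repr y l ∈ L_κ(D + floorDiv X l)`;
* `finrank_pullback_le`: `dim L_E(π^* D) ≤ Σ_{l<n} dim L_κ(D + floorDiv X l)`.
-/

set_option autoImplicit false
set_option linter.unusedSectionVars false

noncomputable section

namespace Fermat.Agent.BR3.KummerGenus

open AlgebraicCurve Fermat.Agent.Red Finset
open scoped Pointwise

variable {k κ E : Type*} [Field k] [Field κ] [Field E] [Algebra k κ] [Algebra k E] [Algebra κ E]
  [IsScalarTower k κ E] [FiniteDimensional κ E]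

/-! ### Invariance under `Aut(E/κ)` -/

section Invariance

variable (τ : E ≃ₐ[κ] E)

theorem restrictScalars_apply_algebraMap (x : κ) :
    (τ.restrictScalars k) (algebraMap κ E x) = algebraMap κ E x := τ.commutes x

theorem ord_smul_algebraMap (w : Place k E) (x : κ) :
    ((τ.restrictScalars k) • w).ord (algebraMap κ E x) = w.ord (algebraMap κ E x) := by
  have h := Place.ord_smul (τ.restrictScalars k) w (algebraMap κ E x)
  rwa [restrictScalars_apply_algebraMap] at h

theorem restrict_smul (w : Place k E) :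
    ((τ.restrictScalars k) • w).restrict κ = w.restrict κ := by
  apply Place.ext
  ext x
  rw [Place.restrict_toValuationSubring, Place.restrict_toValuationSubring,
    ValuationSubring.mem_comap, ValuationSubring.mem_comap, Place.smul_toValuationSubring,
    ValuationSubring.mem_pointwise_smul_iff_inv_smul_mem]
  have h1 : (τ.restrictScalars k)⁻¹ • (algebraMap κ E x) = algebraMap κ E x := by
    rw [AlgEquiv.smul_def, AlgEquiv.aut_inv]
    have h2 : (τ.restrictScalars k) (algebraMap κ E x) = algebraMap κ E x :=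
      restrictScalars_apply_algebraMap τ x
    conv_lhs => rw [← h2]
    exact (τ.restrictScalars k).symm_apply_apply _
  rw [h1]

theorem ramificationIndex_smul (w : Place k E) :
    ((τ.restrictScalars k) • w).ramificationIndex κ = w.ramificationIndex κ := by
  unfold Place.ramificationIndex
  congr 1
  ext m
  simp only [Set.mem_ofPred_eq]
  constructor
  · rintro ⟨hm, f, hf, hfm⟩
    exact ⟨hm, f, hf, by rw [← hfm, ord_smul_algebraMap]⟩
  · rintro ⟨hm, f, hf, hfm⟩
    exact ⟨hm, f, hf, by rw [← hfm, ord_smul_algebraMap]⟩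

variable [HasPrincipalDivisors k E]

theorem pullback_apply_smul (D : Divisor k κ) (w : Place k E) :
    Divisor.pullback E D ((τ.restrictScalars k) • w) = Divisor.pullback E D w := by
  rw [Divisor.pullback_apply, Divisor.pullback_apply, restrict_smul, ramificationIndex_smul]

/-- `L_E(π^* D)` is stable under `Aut(E/κ)`. -/
theorem apply_mem_pullback (D : Divisor k κ) {y : E}
    (hy : y ∈ riemannRochSpace (Divisor.pullback E D)) :
    τ y ∈ riemannRochSpace (Divisor.pullback E D) := by
  rw [mem_riemannRochSpace_iff] at hy ⊢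
  intro w
  rcases eq_or_ne y 0 with rfl | hy0
  · left
    simp
  right
  set w' : Place k E := (τ.restrictScalars k)⁻¹ • w with hw'
  have hw : w = (τ.restrictScalars k) • w' := by rw [hw', smul_inv_smul]
  have h1 := (hy w').resolve_left hy0
  rw [hw, pullback_apply_smul]
  have h2 := Place.ord_smul (τ.restrictScalars k) w' y
  have h3 : (τ.restrictScalars k) y = τ y := rfl
  rw [h3] at h2
  rw [h2]
  exact h1

end Invariance

/-! ### The divisors `⌊l · div δ / n⌋` -/

variable [HasPrincipalDivisors k κ] [HasPrincipalDivisors k E]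
variable {n : ℕ} (X : KummerDatum k κ E n)

/-- The divisor `⌊l · div δ / n⌋` of `κ`. -/
def floorDiv (l : ℕ) : Divisor k κ :=
  Finsupp.mapRange (fun a : ℤ => ((l : ℤ) * a) / (n : ℤ)) (by simp) (divOf k X.δ)

theorem floorDiv_apply (l : ℕ) (v : Place k κ) :
    floorDiv X l v = ((l : ℤ) * v.ord X.δ) / (n : ℤ) := by
  rw [floorDiv, Finsupp.mapRange_apply, divOf_apply]

/-- Integer arithmetic: `n X ≥ -a`, `n > 0` ⟹ `X ≥ -⌊a / n⌋`. -/
theorem neg_ediv_le_of_le_mul {n a x : ℤ} (hn : 0 < n) (h : -a ≤ n * x) : -(a / n) ≤ x := by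
  have h1 := Int.emod_add_mul_ediv a n
  have h2 := Int.emod_lt_of_pos a hn
  have h3 := Int.emod_nonneg a hn.ne'
  by_contra hcon
  have h4 : x + a / n ≤ -1 := by omega
  have h5 : n * (x + a / n) ≤ n * (-1) := mul_le_mul_of_nonneg_left h4 hn.le
  nlinarith

/-- **The component bound.** If `g u^l ∈ L_E(π^* D)` with `g ∈ κ` then
`g ∈ L_κ(D + ⌊l div δ / n⌋)`. -/
theorem mem_of_mul_pow_mem [FundamentalIdentity k κ E] (hn : 0 < n)
    (hdeg : ∀ v : Place k κ, v.deg = 1)
    (D : Divisor k κ) (l : ℕ) (g : κ)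
    (h : algebraMap κ E g * X.u ^ l ∈ riemannRochSpace (Divisor.pullback E D)) :
    g ∈ riemannRochSpace (D + floorDiv X l) := by
  rw [mem_riemannRochSpace_iff] at h ⊢
  intro v
  rcases eq_or_ne g 0 with rfl | hg
  · left; rfl
  right
  -- a place above `v`
  have hfib : (v.fiber E).Nonempty := by
    by_contra hemp
    rw [Finset.not_nonempty_iff_eq_empty] at hemp
    have hFI := FundamentalIdentity.sum_ramificationIndex_mul_deg (K := k) (F := κ) (F' := E) v
    rw [hemp, Finset.sum_empty, hdeg v] at hFI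
    have hpos : 0 < Module.finrank κ E := Module.finrank_pos
    have : (0 : ℤ) < (Module.finrank κ E : ℤ) * ((1 : ℕ) : ℤ) := by positivity
    omega
  obtain ⟨w, hw⟩ := hfib
  have hwv : w.restrict κ = v := Place.mem_fiber.mp hw
  have hu0 : X.u ≠ 0 := X.u_ne_zero hn
  have hgE : algebraMap κ E g ≠ 0 := by simpa using hg
  have hz0 : algebraMap κ E g * X.u ^ l ≠ 0 := mul_ne_zero hgE (pow_ne_zero _ hu0)
  have h1 := (h w).resolve_left hz0
  rw [Divisor.pullback_apply, hwv] at h1
  set e : ℤ := (w.ramificationIndex κ : ℤ) with he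
  have hepos : 0 < e := by
    have := w.ramificationIndex_pos (F := κ)
    omega
  -- the `n`-th power
  have hpow : (algebraMap κ E g * X.u ^ l) ^ n = algebraMap κ E (g ^ n * X.δ ^ l) := by
    rw [mul_pow, ← pow_mul, mul_comm l n, pow_mul, X.hu, map_mul, map_pow, map_pow]
  have h2 : (n : ℤ) * w.ord (algebraMap κ E g * X.u ^ l) =
      e * ((n : ℤ) * v.ord g + (l : ℤ) * v.ord X.δ) := by
    have h3 := Fermat.Agent.X0.Place.ord_pow w (algebraMap κ E g * X.u ^ l) n
    rw [hpow, w.ord_restrict (F := κ), hwv,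
      v.ord_mul (pow_ne_zero _ hg) (pow_ne_zero _ X.hδ),
      Fermat.Agent.X0.Place.ord_pow, Fermat.Agent.X0.Place.ord_pow] at h3
    rw [← h3]
  rw [Finsupp.add_apply, floorDiv_apply]
  have hnpos : (0 : ℤ) < (n : ℤ) := by exact_mod_cast hn
  -- `e (n ord g + l a) ≥ - n e D(v)`
  have h4 : -(e * ((n : ℤ) * D v)) ≤ e * ((n : ℤ) * v.ord g + (l : ℤ) * v.ord X.δ) := by
    rw [← h2]
    have := mul_le_mul_of_nonneg_left h1 hnpos.le
    linarith
  have h5 : -((n : ℤ) * D v) ≤ (n : ℤ) * v.ord g + (l : ℤ) * v.ord X.δ := by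
    by_contra hcon
    rw [not_le] at hcon
    have := mul_lt_mul_of_pos_left hcon hepos
    linarith
  have h6 : -((l : ℤ) * v.ord X.δ) ≤ (n : ℤ) * (v.ord g + D v) := by linarith
  have h7 := neg_ediv_le_of_le_mul hnpos h6
  linarith

/-- `y ∈ L_E(π^* D) ⇒ b.repr y l ∈ L_κ(D + ⌊l div δ / n⌋)`. -/
theorem repr_mem [FundamentalIdentity k κ E] (hn : 0 < n) (hnk : (n : k) ≠ 0)
    (hdeg : ∀ v : Place k κ, v.deg = 1) (D : Divisor k κ) {y : E}
    (hy : y ∈ riemannRochSpace (Divisor.pullback E D)) (l : Fin n) :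
    X.b.repr y l ∈ riemannRochSpace (D + floorDiv X (l : ℕ)) :=
  mem_of_mul_pow_mem X hn hdeg D l _
    (X.repr_smul_pow_mem hn hnk _ (fun _ hz => apply_mem_pullback X.σ D hz) hy l)

/-- The coordinate map `L_E(π^* D) → ⊕_l L_κ(D + ⌊l div δ / n⌋)`. -/
def coordMap [FundamentalIdentity k κ E] (hn : 0 < n) (hnk : (n : k) ≠ 0)
    (hdeg : ∀ v : Place k κ, v.deg = 1) (D : Divisor k κ) :
    riemannRochSpace (Divisor.pullback E D) →ₗ[k]
      (∀ l : Fin n, riemannRochSpace (D + floorDiv X (l : ℕ))) where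
  toFun y l := ⟨X.b.repr (y : E) l, repr_mem X hn hnk hdeg D y.2 l⟩
  map_add' y z := by
    funext l
    apply Subtype.ext
    simp
  map_smul' c y := by
    funext l
    apply Subtype.ext
    simp only [RingHom.id_apply, Pi.smul_apply, Submodule.coe_smul]
    rw [← algebraMap_smul κ c (y : E), map_smul, Finsupp.smul_apply, smul_eq_mul,
      Algebra.smul_def]

theorem coordMap_injective [FundamentalIdentity k κ E] (hn : 0 < n) (hnk : (n : k) ≠ 0)
    (hdeg : ∀ v : Place k κ, v.deg = 1) (D : Divisor k κ) :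
    Function.Injective (coordMap X hn hnk hdeg D) := by
  intro y z hyz
  apply Subtype.ext
  apply X.b.repr.injective
  ext l
  have := congrArg (fun f => ((f l : riemannRochSpace (D + floorDiv X (l : ℕ))) : κ)) hyz
  exact this

/-- **The dimension bound.** -/
theorem finrank_pullback_le [FundamentalIdentity k κ E] (hn : 0 < n) (hnk : (n : k) ≠ 0)
    (hdeg : ∀ v : Place k κ, v.deg = 1)
    (hfin : ∀ D : Divisor k κ, Module.Finite k (riemannRochSpace D)) (D : Divisor k κ) :
    Module.finrank k (riemannRochSpace (Divisor.pullback E D)) ≤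
      ∑ l : Fin n, Module.finrank k (riemannRochSpace (D + floorDiv X (l : ℕ))) := by
  have : ∀ l : Fin n, Module.Finite k (riemannRochSpace (D + floorDiv X (l : ℕ))) :=
    fun l => hfin _
  rw [← Module.finrank_pi_fintype]
  exact LinearMap.finrank_le_finrank_of_injective (coordMap_injective X hn hnk hdeg D)

end Fermat.Agent.BR3.KummerGenus
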