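import Mathlib
import Fermat.Agent.Red.Setup
import Fermat.Agent.BR3.KummerGenus.Bound

/-!
# Program C (S36), node A12 (C-GENUS-K): genus LOWER bound for a Kummer extension

`E/κ` function fields over an algebraically closed-like constant field `k` (Riemann packages on both
sides), `X : KummerDatum k κ E n` a Kummer presentation (`E = κ(u)`, `uⁿ = δ`, `σ u = ζ u`).

* `genus_ge` : `n g_κ - n + 1 - Σ_{l<n} deg ⌊l div δ / n⌋ ≤ g_E`            (pure Riemann–Roch);
* `mul_degree_floorDiv_le` : `n · deg ⌊l div δ / n⌋ ≤ - Σ_{v ∈ T} ((l · ord_v δ) mod n)` for ANY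
  finite set `T` of places (unknown places may be dropped);
* `riemann_hurwitz_ge` : if `ord_v δ ≡ -1 (mod n)` for all `v ∈ T` (total ramification at `T`) then
  `n (2 g_κ - 2) + |T| (n - 1) ≤ 2 g_E - 2`  — the Riemann–Hurwitz INEQUALITY needed for the genus
  hypothesis `hg` through `SS.SemistableSetup.genus_eq_of_le`.
-/

set_option autoImplicit false
set_option linter.unusedSectionVars false

noncomputable section

namespace Fermat.Agent.BR3.KummerGenus

open AlgebraicCurve Fermat.Agent.Red Finset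

variable {k κ E : Type*} [Field k] [Field κ] [Field E] [Algebra k κ] [Algebra k E] [Algebra κ E]
  [IsScalarTower k κ E] [FiniteDimensional κ E]
  [HasPrincipalDivisors k κ] [HasPrincipalDivisors k E] [FundamentalIdentity k κ E]
variable {n : ℕ} (X : KummerDatum k κ E n)

include X in
theorem natCast_ne_zero (hn : 0 < n) : (n : k) ≠ 0 := by
  have : NeZero n := ⟨hn.ne'⟩
  exact (X.hζ.neZero').out

/-- **Pure Riemann–Roch bound.** -/
theorem genus_ge (hκ : RiemannPkg k κ) (hE : RiemannPkg k E) (hn : 0 < n)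
    (hfr : Module.finrank κ E = n) :
    (n : ℤ) * (genusFF k κ : ℤ) - n + 1 - ∑ l : Fin n, Divisor.degree (floorDiv X (l : ℕ)) ≤
      (genusFF k E : ℤ) := by
  classical
  obtain ⟨c, hc⟩ := hκ.riemann_eq
  obtain ⟨P₀⟩ : Nonempty (Place k κ) := by
    have := hκ.infinite_places
    exact inferInstance
  set B : ℤ := ∑ l : Fin n, |Divisor.degree (floorDiv X (l : ℕ))| with hB
  set c' : ℤ := max c 0 + B with hc'
  set D : Divisor k κ := Finsupp.single P₀ c' with hD
  have hdegD : Divisor.degree D = c' := degree_single_of_pkg hκ P₀ c'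
  have hBl : ∀ l : Fin n, |Divisor.degree (floorDiv X (l : ℕ))| ≤ B := fun l =>
    Finset.single_le_sum (f := fun l : Fin n => |Divisor.degree (floorDiv X (l : ℕ))|)
      (fun _ _ => abs_nonneg _) (Finset.mem_univ l)
  have hrr : ∀ l : Fin n,
      (Module.finrank k (riemannRochSpace (D + floorDiv X (l : ℕ))) : ℤ) =
        c' + Divisor.degree (floorDiv X (l : ℕ)) + 1 - (genusFF k κ : ℤ) := by
    intro l
    have hdeg : Divisor.degree (D + floorDiv X (l : ℕ)) =
        c' + Divisor.degree (floorDiv X (l : ℕ)) := by rw [map_add, hdegD]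
    rw [hc _ (by
      rw [hdeg]
      have h1 := hBl l
      have h2 := neg_abs_le (Divisor.degree (floorDiv X (l : ℕ)))
      have h3 := le_max_left c 0
      omega), hdeg]
  have hle := finrank_pullback_le X hn (natCast_ne_zero X hn) hκ.deg_one hκ.finite_L D
  have hge := hE.riemann_le (Divisor.pullback E D)
  rw [Divisor.degree_pullback, hdegD, hfr] at hge
  have hle' : (Module.finrank k (riemannRochSpace (Divisor.pullback E D)) : ℤ) ≤
      ∑ l : Fin n, (c' + Divisor.degree (floorDiv X (l : ℕ)) + 1 - (genusFF k κ : ℤ)) := by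
    have : (Module.finrank k (riemannRochSpace (Divisor.pullback E D)) : ℤ) ≤
        ((∑ l : Fin n, Module.finrank k (riemannRochSpace (D + floorDiv X (l : ℕ))) : ℕ) : ℤ) := by
      exact_mod_cast hle
    rw [Nat.cast_sum] at this
    rwa [Finset.sum_congr rfl fun l _ => hrr l] at this
  rw [Finset.sum_sub_distrib, Finset.sum_add_distrib, Finset.sum_add_distrib] at hle'
  simp only [Finset.sum_const, Finset.card_univ, Fintype.card_fin, nsmul_eq_mul, mul_one] at hle'
  linarith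

/-- `n · deg ⌊l div δ / n⌋ ≤ - Σ_{v ∈ T} ((l ord_v δ) mod n)` for any finite set `T` of places. -/
theorem mul_degree_floorDiv_le (hκ : RiemannPkg k κ) (hn : 0 < n) (l : ℕ)
    (T : Finset (Place k κ)) :
    (n : ℤ) * Divisor.degree (floorDiv X l) ≤ -∑ v ∈ T, (((l : ℤ) * v.ord X.δ) % (n : ℤ)) := by
  classical
  set S : Finset (Place k κ) := (divOf k X.δ).support ∪ T with hS
  have hnpos : (0 : ℤ) < (n : ℤ) := by exact_mod_cast hn
  -- degrees as sums over `S`
  have h1 : Divisor.degree (floorDiv X l) = ∑ v ∈ S, (((l : ℤ) * v.ord X.δ) / (n : ℤ)) := by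
    have hsub : (floorDiv X l).support ⊆ S := by
      intro v hv
      rw [Finsupp.mem_support_iff, floorDiv_apply] at hv
      rw [hS, Finset.mem_union, Finsupp.mem_support_iff, divOf_apply]
      left
      intro h0
      rw [h0, mul_zero, Int.zero_ediv] at hv
      exact hv rfl
    rw [degree_eq_sum hκ, Finsupp.sum_of_support_subset _ hsub _ (fun _ _ => rfl)]
    exact Finset.sum_congr rfl fun v _ => floorDiv_apply X l v
  have h2 : ∑ v ∈ S, v.ord X.δ = 0 := by
    have h3 := degree_divOf (K := k) X.δ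
    rw [degree_eq_sum hκ, Finsupp.sum_of_support_subset _
      (Finset.subset_union_left (s₂ := T)) _ (fun _ _ => rfl)] at h3
    rw [← h3]
    exact Finset.sum_congr rfl fun v _ => (divOf_apply X.δ v).symm
  have h4 : (n : ℤ) * ∑ v ∈ S, (((l : ℤ) * v.ord X.δ) / (n : ℤ)) =
      -∑ v ∈ S, (((l : ℤ) * v.ord X.δ) % (n : ℤ)) := by
    rw [Finset.mul_sum, ← Finset.sum_neg_distrib]
    have h5 : ∑ v ∈ S, ((n : ℤ) * (((l : ℤ) * v.ord X.δ) / (n : ℤ))) =
        ∑ v ∈ S, ((l : ℤ) * v.ord X.δ - ((l : ℤ) * v.ord X.δ) % (n : ℤ)) :=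
      Finset.sum_congr rfl fun v _ => by
        have := Int.emod_add_mul_ediv ((l : ℤ) * v.ord X.δ) (n : ℤ)
        linarith
    rw [h5, Finset.sum_sub_distrib, ← Finset.mul_sum, h2, mul_zero, zero_sub,
      Finset.sum_neg_distrib]
  rw [h1, h4, neg_le_neg_iff]
  exact Finset.sum_le_sum_of_subset_of_nonneg Finset.subset_union_right
    (fun v _ _ => Int.emod_nonneg _ hnpos.ne')

/-- `Σ_{l<n} ((l a) mod n) = n (n-1) / 2` when `a ≡ -1 (mod n)`, doubled. -/
theorem two_mul_sum_emod {a : ℤ} (hn : 0 < n) (ha : (n : ℤ) ∣ a + 1) :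
    2 * ∑ l : Fin n, (((l : ℕ) : ℤ) * a) % (n : ℤ) = (n : ℤ) * ((n : ℤ) - 1) := by
  have hnpos : (0 : ℤ) < (n : ℤ) := by exact_mod_cast hn
  obtain ⟨t, ht⟩ := ha
  have hterm : ∀ l : ℕ, l < n → ((l : ℤ) * a) % (n : ℤ) = if l = 0 then 0 else (n : ℤ) - l := by
    intro l hl
    have h1 : (l : ℤ) * a = ((n : ℤ) - l) + ((l : ℤ) * t - 1) * (n : ℤ) := by
      have : a = (n : ℤ) * t - 1 := by linarith
      rw [this]
      ring
    rw [h1, Int.add_mul_emod_self_right]
    split_ifs with h0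
    · subst h0
      simp
    · have hl0 : 0 < l := Nat.pos_of_ne_zero h0
      have hlt : (l : ℤ) < (n : ℤ) := by exact_mod_cast hl
      have hlpos : (0 : ℤ) < (l : ℤ) := by exact_mod_cast hl0
      exact Int.emod_eq_of_lt (by linarith) (by linarith)
  rw [Fin.sum_univ_eq_sum_range (fun l : ℕ => ((l : ℤ) * a) % (n : ℤ)) n,
    Finset.sum_congr rfl fun l hl => hterm l (Finset.mem_range.mp hl)]
  -- `Σ_{l<n} (if l = 0 then 0 else n - l) = n² - Σ l - n`
  have h2 : ∑ l ∈ range n, (if l = 0 then (0 : ℤ) else (n : ℤ) - l) =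
      ∑ l ∈ range n, ((n : ℤ) - l) - (n : ℤ) := by
    have h3 : ∀ l ∈ range n, (if l = 0 then (0 : ℤ) else (n : ℤ) - l) =
        ((n : ℤ) - l) - (if l = 0 then (n : ℤ) else 0) := by
      intro l _
      split_ifs with h0
      · subst h0; simp
      · simp
    rw [Finset.sum_congr rfl h3, Finset.sum_sub_distrib, Finset.sum_ite_eq' (range n) 0,
      if_pos (Finset.mem_range.mpr hn)]
  rw [h2, Finset.sum_sub_distrib, Finset.sum_const, Finset.card_range, nsmul_eq_mul]
  have h4 : ((∑ l ∈ range n, l : ℕ) : ℤ) * 2 = (n : ℤ) * ((n : ℤ) - 1) := by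
    have := Finset.sum_range_id_mul_two n
    have h5 : ((n * (n - 1) : ℕ) : ℤ) = (n : ℤ) * ((n : ℤ) - 1) := by
      rw [Nat.cast_mul, Nat.cast_sub hn, Nat.cast_one]
    rw [← h5, ← this]
    push_cast
    ring
  rw [Nat.cast_sum] at h4
  linarith

/-- **Riemann–Hurwitz inequality** for a Kummer extension totally ramified over `T`:
`n (2 g_κ - 2) + |T| (n - 1) ≤ 2 g_E - 2`. -/
theorem riemann_hurwitz_ge (hκ : RiemannPkg k κ) (hE : RiemannPkg k E) (hn : 0 < n)
    (hfr : Module.finrank κ E = n) (T : Finset (Place k κ))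
    (hT : ∀ v ∈ T, (n : ℤ) ∣ v.ord X.δ + 1) :
    (n : ℤ) * (2 * (genusFF k κ : ℤ) - 2) + (T.card : ℤ) * ((n : ℤ) - 1) ≤
      2 * (genusFF k E : ℤ) - 2 := by
  have hnpos : (0 : ℤ) < (n : ℤ) := by exact_mod_cast hn
  have h1 := genus_ge X hκ hE hn hfr
  -- `2 n Σ_l deg ≤ - |T| n (n-1)`
  have h2 : 2 * ((n : ℤ) * ∑ l : Fin n, Divisor.degree (floorDiv X (l : ℕ))) ≤
      -((T.card : ℤ) * ((n : ℤ) * ((n : ℤ) - 1))) := by
    rw [Finset.mul_sum]
    have h3 : ∑ l : Fin n, (n : ℤ) * Divisor.degree (floorDiv X (l : ℕ)) ≤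
        ∑ l : Fin n, -∑ v ∈ T, ((((l : ℕ) : ℤ) * v.ord X.δ) % (n : ℤ)) :=
      Finset.sum_le_sum fun l _ => mul_degree_floorDiv_le X hκ hn (l : ℕ) T
    have h4 : 2 * ∑ l : Fin n, -∑ v ∈ T, ((((l : ℕ) : ℤ) * v.ord X.δ) % (n : ℤ)) =
        -((T.card : ℤ) * ((n : ℤ) * ((n : ℤ) - 1))) := by
      rw [Finset.sum_neg_distrib, Finset.sum_comm, mul_neg, neg_inj, Finset.mul_sum,
        Finset.sum_congr rfl fun v hv => two_mul_sum_emod hn (hT v hv), Finset.sum_const,
        nsmul_eq_mul]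
    linarith
  -- divide by `n`
  have h5 : 2 * ∑ l : Fin n, Divisor.degree (floorDiv X (l : ℕ)) ≤
      -((T.card : ℤ) * ((n : ℤ) - 1)) := by
    by_contra hcon
    rw [not_le] at hcon
    have := mul_lt_mul_of_pos_left hcon hnpos
    nlinarith
  linarith

end Fermat.Agent.BR3.KummerGenus
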