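import Mathlib
import Fermat.Agent.BR3.KummerGenus.Main

/-!
# Program C (S36), nodes (W3-MID) + (G2-MID): THE place of a Kummer extension over a point with
coprime order

`E/κ` function fields over `k`, `X : KummerDatum k κ E n` a Kummer presentation (`E = κ(u)`,
`uⁿ = δ`), all places of degree one.  Over a place `v` of `κ` with `(ord_v δ, n) = 1` there is
exactly one place of `E`; it is totally ramified.

* `mul_ord_u` : `n · ord_w u = e(w) · ord_{w|κ} δ`;
* `dvd_ramificationIndex_of_coprime` : `(ord_{w|κ} δ, n) = 1 ⟹ n ∣ e(w)`;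
* `existsUnique_place_over` : `∃! w, w.restrict κ = v`;
* `kummerPlace` (by choice), `kummerPlace_restrict`, `eq_kummerPlace`,
  `ramificationIndex_kummerPlace` (`= n`), `ord_kummerPlace_algebraMap`, `ord_kummerPlace_u`,
  `kummerPlace_injective`;
* `isSeparable_of_kummerDatum` : `E/κ` is separable when `n ≠ 0` in `κ`.
-/

set_option autoImplicit false
set_option linter.unusedSectionVars false

noncomputable section

namespace Fermat.Agent.BR3.KummerGenus

open AlgebraicCurve Fermat.Agent.Red Finset

section Places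

variable {k κ E : Type*} [Field k] [Field κ] [Field E] [Algebra k κ] [Algebra k E] [Algebra κ E]
  [IsScalarTower k κ E] [FiniteDimensional κ E]
  [HasPrincipalDivisors k κ] [HasPrincipalDivisors k E] [FundamentalIdentity k κ E]
variable {n : ℕ} (X : KummerDatum k κ E n)

/-- `n · ord_w u = e(w) · ord_{w|κ} δ` -/
theorem mul_ord_u (w : Place k E) :
    (n : ℤ) * w.ord X.u = (w.ramificationIndex κ : ℤ) * (w.restrict κ).ord X.δ := by
  have h1 : w.ord (X.u ^ (n : ℤ)) = (n : ℤ) * w.ord X.u := w.ord_zpow _ _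
  rw [zpow_natCast, X.hu, Place.ord_restrict] at h1
  exact h1.symm

/-- a place over a point where the order of `δ` is prime to `n` is totally ramified -/
theorem dvd_ramificationIndex_of_coprime (w : Place k E)
    (h : IsCoprime ((w.restrict κ).ord X.δ) (n : ℤ)) :
    (n : ℤ) ∣ (w.ramificationIndex κ : ℤ) :=
  h.symm.dvd_of_dvd_mul_right (Dvd.intro _ (mul_ord_u X w))

/-- `n ≤ e(w)` -/
theorem le_ramificationIndex_of_coprime (w : Place k E)
    (h : IsCoprime ((w.restrict κ).ord X.δ) (n : ℤ)) :
    (n : ℤ) ≤ (w.ramificationIndex κ : ℤ) :=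
  Int.le_of_dvd (by exact_mod_cast w.ramificationIndex_pos (F := κ))
    (dvd_ramificationIndex_of_coprime X w h)

variable (hfr : Module.finrank κ E = n) (hn : 0 < n)
  (hκ1 : ∀ v : Place k κ, v.deg = 1) (hE1 : ∀ w : Place k E, w.deg = 1)

include hfr hκ1 hE1 in
/-- the sum of the ramification indices over a point is `n` -/
theorem sum_ramificationIndex (v : Place k κ) :
    ∑ w ∈ v.fiber E, (w.ramificationIndex κ : ℤ) = n := by
  have h := FundamentalIdentity.sum_ramificationIndex_mul_deg (K := k) (F := κ) (F' := E) v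
  rw [hκ1 v, hfr] at h
  simp only [hE1, Nat.cast_one, mul_one] at h
  exact h

include hfr hn hκ1 hE1 in
/-- **Over a point with `(ord_v δ, n) = 1` there is exactly one place of `E`.** -/
theorem existsUnique_place_over (v : Place k κ) (hv : IsCoprime (v.ord X.δ) (n : ℤ)) :
    ∃! w : Place k E, w.restrict κ = v := by
  classical
  have hsum := sum_ramificationIndex hfr hκ1 hE1 v
  have hle : ∀ w ∈ v.fiber E, (n : ℤ) ≤ (w.ramificationIndex κ : ℤ) := by
    intro w hw
    have hw' : w.restrict κ = v := Place.mem_fiber.mp hw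
    exact le_ramificationIndex_of_coprime X w (by rw [hw']; exact hv)
  have hne : (v.fiber E).Nonempty := by
    by_contra h0
    rw [Finset.not_nonempty_iff_eq_empty] at h0
    rw [h0, Finset.sum_empty] at hsum
    have : (n : ℤ) = 0 := hsum.symm
    exact hn.ne' (by exact_mod_cast this)
  obtain ⟨w₀, hw₀⟩ := hne
  refine ⟨w₀, Place.mem_fiber.mp hw₀, fun w₁ hw₁ => ?_⟩
  by_contra hne
  have hw₁' : w₁ ∈ v.fiber E := Place.mem_fiber.mpr hw₁
  have hsub : ({w₀, w₁} : Finset (Place k E)) ⊆ v.fiber E := by
    intro x hx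
    rcases Finset.mem_insert.mp hx with rfl | hx
    · exact hw₀
    · rw [Finset.mem_singleton.mp hx]; exact hw₁'
  have h2 : ∑ w ∈ ({w₀, w₁} : Finset (Place k E)), (w.ramificationIndex κ : ℤ) ≤
      ∑ w ∈ v.fiber E, (w.ramificationIndex κ : ℤ) :=
    Finset.sum_le_sum_of_subset_of_nonneg hsub (fun _ _ _ => by positivity)
  rw [Finset.sum_pair (fun h => hne h.symm), hsum] at h2
  have h3 := hle w₀ hw₀
  have h4 := hle w₁ hw₁'
  have hn' : (0 : ℤ) < n := by exact_mod_cast hn
  omega

/-- **THE place of `E` over a point `v` with `(ord_v δ, n) = 1`.** -/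
def kummerPlace (v : Place k κ) (hv : IsCoprime (v.ord X.δ) (n : ℤ)) : Place k E :=
  (existsUnique_place_over X hfr hn hκ1 hE1 v hv).choose

theorem kummerPlace_restrict (v : Place k κ) (hv : IsCoprime (v.ord X.δ) (n : ℤ)) :
    (kummerPlace X hfr hn hκ1 hE1 v hv).restrict κ = v :=
  (existsUnique_place_over X hfr hn hκ1 hE1 v hv).choose_spec.1

theorem eq_kummerPlace (v : Place k κ) (hv : IsCoprime (v.ord X.δ) (n : ℤ)) {w : Place k E}
    (hw : w.restrict κ = v) : w = kummerPlace X hfr hn hκ1 hE1 v hv :=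
  (existsUnique_place_over X hfr hn hκ1 hE1 v hv).choose_spec.2 w hw

/-- the places over different points are different (`branch_injective` on the Kummer side) -/
theorem kummerPlace_injective {v v' : Place k κ} (hv : IsCoprime (v.ord X.δ) (n : ℤ))
    (hv' : IsCoprime (v'.ord X.δ) (n : ℤ))
    (h : kummerPlace X hfr hn hκ1 hE1 v hv = kummerPlace X hfr hn hκ1 hE1 v' hv') : v = v' := by
  rw [← kummerPlace_restrict X hfr hn hκ1 hE1 v hv, h, kummerPlace_restrict]

/-- the fibre over `v` is the singleton of the Kummer place -/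
theorem fiber_eq_singleton (v : Place k κ) (hv : IsCoprime (v.ord X.δ) (n : ℤ)) :
    v.fiber E = {kummerPlace X hfr hn hκ1 hE1 v hv} := by
  ext w
  rw [Place.mem_fiber, Finset.mem_singleton]
  constructor
  · exact fun h => eq_kummerPlace X hfr hn hκ1 hE1 v hv h
  · rintro rfl
    exact kummerPlace_restrict X hfr hn hκ1 hE1 v hv

/-- **total ramification**: `e = n` -/
theorem ramificationIndex_kummerPlace (v : Place k κ) (hv : IsCoprime (v.ord X.δ) (n : ℤ)) :
    (kummerPlace X hfr hn hκ1 hE1 v hv).ramificationIndex κ = n := by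
  have hsum := sum_ramificationIndex hfr hκ1 hE1 v
  rw [fiber_eq_singleton X hfr hn hκ1 hE1 v hv, Finset.sum_singleton] at hsum
  exact_mod_cast hsum

/-- `ord (x) = n · ord_v x` for `x ∈ κ` -/
theorem ord_kummerPlace_algebraMap (v : Place k κ) (hv : IsCoprime (v.ord X.δ) (n : ℤ)) (x : κ) :
    (kummerPlace X hfr hn hκ1 hE1 v hv).ord (algebraMap κ E x) = (n : ℤ) * v.ord x := by
  rw [Place.ord_restrict, ramificationIndex_kummerPlace, kummerPlace_restrict]

/-- `ord u = ord_v δ` -/
theorem ord_kummerPlace_u (v : Place k κ) (hv : IsCoprime (v.ord X.δ) (n : ℤ)) :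
    (kummerPlace X hfr hn hκ1 hE1 v hv).ord X.u = v.ord X.δ := by
  have h := mul_ord_u X (kummerPlace X hfr hn hκ1 hE1 v hv)
  rw [ramificationIndex_kummerPlace, kummerPlace_restrict] at h
  have hn' : (n : ℤ) ≠ 0 := by exact_mod_cast hn.ne'
  exact mul_left_cancel₀ hn' h

end Places

/-! ### Separability -/

section Separable

variable {k κ E : Type*} [Field k] [Field κ] [Field E] [Algebra k κ] [Algebra k E] [Algebra κ E]
variable {n : ℕ} (X : KummerDatum k κ E n)

/-- the Kummer generator is separable over `κ` when `n ≠ 0` in `κ` -/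
theorem isSeparable_u (hnκ : (n : κ) ≠ 0) : IsSeparable κ X.u := by
  have hsep : (Polynomial.X ^ n - Polynomial.C X.δ : Polynomial κ).Separable :=
    Polynomial.separable_X_pow_sub_C X.δ hnκ X.hδ
  have hroot : Polynomial.aeval X.u (Polynomial.X ^ n - Polynomial.C X.δ : Polynomial κ) = 0 := by
    rw [map_sub, map_pow, Polynomial.aeval_X, Polynomial.aeval_C, X.hu, sub_self]
  exact hsep.of_dvd (minpoly.dvd κ X.u hroot)

/-- every element of `E` is a `κ`-combination of powers of `u` -/
theorem mem_adjoin_u (y : E) : y ∈ IntermediateField.adjoin κ {X.u} := by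
  rw [← X.b.sum_repr y]
  refine sum_mem fun l _ => ?_
  rw [X.hb l, Algebra.smul_def]
  exact mul_mem (IntermediateField.algebraMap_mem _ _)
    (pow_mem (IntermediateField.mem_adjoin_simple_self κ X.u) _)

include X in
/-- **`E/κ` is separable** when `n ≠ 0` in `κ` (e.g. `n ∣ q − 1` in characteristic `q`). -/
theorem isSeparable_of_kummerDatum (hnκ : (n : κ) ≠ 0) : Algebra.IsSeparable κ E := by
  rw [← separableClosure.eq_top_iff]
  refine top_unique fun y _ => ?_
  have h1 : IntermediateField.adjoin κ {X.u} ≤ separableClosure κ E := by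
    rw [IntermediateField.adjoin_le_iff]
    intro z hz
    rw [Set.mem_singleton_iff.mp hz]
    exact mem_separableClosure_iff.mpr (isSeparable_u X hnκ)
  exact h1 (mem_adjoin_u X y)

end Separable

end Fermat.Agent.BR3.KummerGenus
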