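import Mathlib
import Fermat.Agent.BR3.KummerGenus.Main

/-!
# Program C (S36), node (I5-MID), part (A): the Kummer genus bound with COPRIME orders and with
LOCAL witnesses

helper5's `riemann_hurwitz_ge` (node A12) asks `n ∣ ord_v δ + 1` at the places `v ∈ T`, for the
generator `δ = uⁿ` of the Kummer datum.  At an elliptic supersingular point the natural Kummer
element is attached to a local parameter `f` and differs from the global one; so we prove

* `two_mul_sum_emod_of_coprime`, `riemann_hurwitz_ge_of_coprime` : the same bound from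
  `IsCoprime (ord_v δ) n` (total ramification at `v`);
* `KummerDatum.sigma_pow_card` (`σⁿ = 1`), `KummerDatum.mem_range_of_fixed` (the fixed field of
  `σ` is `κ`), `KummerDatum.exists_eq_mul_pow` (**Kummer transfer**: `y^N ∈ κ`, `μ_N ⊆ k` ⟹
  `y = c' · u^i`);
* `isCoprime_ord_of_pow` : `y^(n m) = c ∈ κ`, `ord_v c = m a`, `(a, n) = 1` ⟹ `(ord_v δ, n) = 1`;
* `riemann_hurwitz_ge_of_local` : the bound from local witnesses `(y, c, a)` at every `v ∈ T`.
-/

set_option autoImplicit false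
set_option linter.unusedSectionVars false

noncomputable section

namespace Fermat.Agent.BR3.KummerGenus

open AlgebraicCurve Fermat.Agent.Red Finset

/-! ### the arithmetic sum -/

/-- `Σ_{l<n} ((l a) mod n) = n (n-1) / 2` when `a` is prime to `n`, doubled. -/
theorem two_mul_sum_emod_of_coprime {n : ℕ} {a : ℤ} (hn : 0 < n) (ha : IsCoprime a (n : ℤ)) :
    2 * ∑ l : Fin n, (((l : ℕ) : ℤ) * a) % (n : ℤ) = (n : ℤ) * ((n : ℤ) - 1) := by
  have : NeZero n := ⟨hn.ne'⟩
  -- `a` is a unit of `ZMod n`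
  have hunit : IsUnit ((a : ZMod n)) := by
    obtain ⟨s, t, hst⟩ := ha
    have h1 : ((s * a + t * (n : ℤ) : ℤ) : ZMod n) = 1 := by rw [hst]; simp
    push_cast at h1
    rw [ZMod.natCast_self, mul_zero, add_zero] at h1
    exact IsUnit.of_mul_eq_one _ (by rw [mul_comm]; exact h1)
  obtain ⟨ua, hua⟩ := hunit
  -- rewrite each term as the `val` of a product in `ZMod n`
  have hterm : ∀ l : Fin n, (((l : ℕ) : ℤ) * a) % (n : ℤ) =
      ((((l : ℕ) : ZMod n) * (ua : ZMod n)).val : ℤ) := by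
    intro l
    rw [hua, ← ZMod.val_intCast]
    congr 2
    push_cast
    ring
  rw [Finset.sum_congr rfl fun l _ => hterm l]
  -- reindex by `ZMod n`
  have hre : ∑ l : Fin n, ((((l : ℕ) : ZMod n) * (ua : ZMod n)).val : ℤ) =
      ∑ z : ZMod n, ((z * (ua : ZMod n)).val : ℤ) := by
    cases n with
    | zero => exact absurd hn (lt_irrefl 0)
    | succ m =>
      refine Finset.sum_congr rfl fun l _ => ?_
      congr 3
      exact (ZMod.natCast_zmod_val (n := m + 1) l)
  rw [hre]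
  -- multiplication by a unit permutes `ZMod n`
  have hperm : ∑ z : ZMod n, ((z * (ua : ZMod n)).val : ℤ) = ∑ z : ZMod n, (z.val : ℤ) :=
    Fintype.sum_equiv (Units.mulRight ua) _ _ fun z => rfl
  rw [hperm]
  have hback : ∑ z : ZMod n, (z.val : ℤ) = ∑ l ∈ range n, (l : ℤ) := by
    cases n with
    | zero => exact absurd hn (lt_irrefl 0)
    | succ m =>
      rw [← Fin.sum_univ_eq_sum_range (fun l : ℕ => (l : ℤ)) (m + 1)]
      rfl
  rw [hback]
  have h4 : ((∑ l ∈ range n, l : ℕ) : ℤ) * 2 = (n : ℤ) * ((n : ℤ) - 1) := by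
    have := Finset.sum_range_id_mul_two n
    have h5 : ((n * (n - 1) : ℕ) : ℤ) = (n : ℤ) * ((n : ℤ) - 1) := by
      rw [Nat.cast_mul, Nat.cast_sub hn, Nat.cast_one]
    rw [← h5, ← this]
    push_cast
    ring
  rw [Nat.cast_sum] at h4
  linarith

variable {k κ E : Type*} [Field k] [Field κ] [Field E] [Algebra k κ] [Algebra k E] [Algebra κ E]
  [IsScalarTower k κ E]
variable {n : ℕ} (X : KummerDatum k κ E n)

/-! ### the Riemann–Hurwitz inequality with coprime orders -/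

section RH

variable [FiniteDimensional κ E]
  [HasPrincipalDivisors k κ] [HasPrincipalDivisors k E] [FundamentalIdentity k κ E]

/-- **Riemann–Hurwitz inequality** for a Kummer extension totally ramified over `T`, in the form
`(ord_v δ, n) = 1` for `v ∈ T`: `n (2 g_κ - 2) + |T| (n - 1) ≤ 2 g_E - 2`. -/
theorem riemann_hurwitz_ge_of_coprime (hκ : RiemannPkg k κ) (hE : RiemannPkg k E) (hn : 0 < n)
    (hfr : Module.finrank κ E = n) (T : Finset (Place k κ))
    (hT : ∀ v ∈ T, IsCoprime (v.ord X.δ) (n : ℤ)) :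
    (n : ℤ) * (2 * (genusFF k κ : ℤ) - 2) + (T.card : ℤ) * ((n : ℤ) - 1) ≤
      2 * (genusFF k E : ℤ) - 2 := by
  have hnpos : (0 : ℤ) < (n : ℤ) := by exact_mod_cast hn
  have h1 := genus_ge X hκ hE hn hfr
  have h2 : 2 * ((n : ℤ) * ∑ l : Fin n, Divisor.degree (floorDiv X (l : ℕ))) ≤
      -((T.card : ℤ) * ((n : ℤ) * ((n : ℤ) - 1))) := by
    rw [Finset.mul_sum]
    have h3 : ∑ l : Fin n, (n : ℤ) * Divisor.degree (floorDiv X (l : ℕ)) ≤
        ∑ l : Fin n, -∑ v ∈ T, ((((l : ℕ) : ℤ) * v.ord X.δ) % (n : ℤ)) :=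
      Finset.sum_le_sum fun l _ => mul_degree_floorDiv_le X hκ hn (l : ℕ) T
    have h4 : 2 * ∑ l : Fin n, -∑ v ∈ T, ((((l : ℕ) : ℤ) * v.ord X.δ) % (n : ℤ)) =
        -((T.card : ℤ) * ((n : ℤ) * ((n : ℤ) - 1))) := by
      rw [Finset.sum_neg_distrib, Finset.sum_comm, mul_neg, neg_inj, Finset.mul_sum,
        Finset.sum_congr rfl fun v hv => two_mul_sum_emod_of_coprime hn (hT v hv),
        Finset.sum_const, nsmul_eq_mul]
    linarith
  have h5 : 2 * ∑ l : Fin n, Divisor.degree (floorDiv X (l : ℕ)) ≤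
      -((T.card : ℤ) * ((n : ℤ) - 1)) := by
    by_contra hcon
    rw [not_le] at hcon
    have := mul_lt_mul_of_pos_left hcon hnpos
    nlinarith
  linarith

end RH

/-! ### Kummer transfer -/

namespace KummerDatum

/-- `σⁿ = 1`. -/
theorem sigma_pow_card : X.σ ^ n = 1 := by
  apply AlgEquiv.ext
  intro z
  rw [AlgEquiv.one_apply]
  conv_lhs => rw [← X.b.sum_repr z]
  conv_rhs => rw [← X.b.sum_repr z]
  rw [map_sum]
  refine Finset.sum_congr rfl fun l _ => ?_
  rw [X.hb l, Algebra.smul_def, X.sigma_pow_apply n (l : ℕ), pow_mul, X.hζ.pow_eq_one, one_pow,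
    map_one, one_mul]

/-- **The fixed field of `σ` is `κ`.** -/
theorem mem_range_of_fixed (hn : 0 < n) (hnk : (n : k) ≠ 0) {z : E} (hz : X.σ z = z) :
    z ∈ Set.range (algebraMap κ E) := by
  have hpow : ∀ j : ℕ, (X.σ ^ j) z = z := by
    intro j
    induction j with
    | zero => simp
    | succ j ih => rw [pow_succ', AlgEquiv.mul_apply, ih, hz]
  -- the eigen-components of index `l ≠ 0` vanish
  have hcomp : ∀ l : Fin n, (l : ℕ) ≠ 0 → X.b.repr z l = 0 := by
    intro l hl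
    have h1 := X.proj_eq hn hnk z l
    have h2 : X.proj (l : ℕ) z = 0 := by
      unfold proj
      have h3 : ∀ j ∈ range n, algebraMap k E ((X.ζ ^ (j * (l : ℕ)))⁻¹) * (X.σ ^ j) z =
          algebraMap k E ((X.ζ ^ (j * (l : ℕ)))⁻¹ * X.ζ ^ (j * 0)) * z := by
        intro j _
        rw [hpow j, mul_zero, pow_zero, mul_one]
      rw [Finset.sum_congr rfl h3, ← Finset.sum_mul, ← map_sum,
        X.sum_zeta_pow hn l.2 hn, if_neg (fun h => hl h.symm), map_zero, zero_mul, mul_zero]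
    rw [h2] at h1
    have hu : X.u ^ (l : ℕ) ≠ 0 := pow_ne_zero _ (X.u_ne_zero hn)
    have h4 := (mul_eq_zero.mp h1.symm).resolve_right hu
    exact (map_eq_zero (algebraMap κ E)).mp h4
  refine ⟨X.b.repr z ⟨0, hn⟩, ?_⟩
  conv_rhs => rw [← X.b.sum_repr z]
  rw [Finset.sum_eq_single (⟨0, hn⟩ : Fin n)]
  · rw [X.hb, Algebra.smul_def]
    simp
  · intro l _ hl
    rw [hcomp l (fun h => hl (Fin.ext h)), zero_smul]
  · intro h
    exact absurd (Finset.mem_univ _) h

/-- **Kummer transfer**: an element `y ≠ 0` of `E` with `y^N ∈ κ` (`k` containing a primitive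
`N`-th root of unity) is `c' · u^i` with `c' ∈ κ`, `i < n`. -/
theorem exists_eq_mul_pow (hn : 0 < n) (hnk : (n : k) ≠ 0) {y : E} (hy0 : y ≠ 0) {N : ℕ}
    (hN : 0 < N) {c : κ} (hy : y ^ N = algebraMap κ E c) {ζN : k} (hζN : IsPrimitiveRoot ζN N) :
    ∃ i : ℕ, i < n ∧ ∃ c' : κ, y = algebraMap κ E c' * X.u ^ i := by
  have : NeZero N := ⟨hN.ne'⟩
  -- `σ y = ξ y` with `ξ^N = 1`
  have hξN : (X.σ y / y) ^ N = 1 := by
    rw [div_pow, ← map_pow, hy, X.σ.commutes, div_self]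
    rw [← hy]
    exact pow_ne_zero _ hy0
  have hζE : IsPrimitiveRoot (algebraMap k E ζN) N := hζN.map_of_injective (algebraMap k E).injective
  obtain ⟨j, -, hj⟩ := hζE.eq_pow_of_pow_eq_one hξN
  have hσy : X.σ y = algebraMap k E (ζN ^ j) * y := by
    rw [map_pow, hj, div_mul_cancel₀ _ hy0]
  -- `σ` fixes the constants
  have hfix : ∀ a : k, X.σ (algebraMap k E a) = algebraMap k E a := fun a => by
    rw [IsScalarTower.algebraMap_apply k κ E, X.σ.commutes]
  -- `σ^t y = (ζN^j)^t y`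
  have hpow : ∀ t : ℕ, (X.σ ^ t) y = algebraMap k E ((ζN ^ j) ^ t) * y := by
    intro t
    induction t with
    | zero => simp
    | succ t ih =>
      rw [pow_succ', AlgEquiv.mul_apply, ih, map_mul, hfix, hσy, pow_succ, map_mul]
      ring
  -- `(ζN^j)^n = 1`
  have hηn : (ζN ^ j) ^ n = 1 := by
    have h1 := hpow n
    rw [X.sigma_pow_card, AlgEquiv.one_apply] at h1
    have h2 : (algebraMap k E ((ζN ^ j) ^ n) - 1) * y = 0 := by
      rw [sub_mul, one_mul, ← h1, sub_self]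
    have h3 := (mul_eq_zero.mp h2).resolve_right hy0
    have h4 : algebraMap k E ((ζN ^ j) ^ n) = algebraMap k E 1 := by
      rw [map_one]
      exact sub_eq_zero.mp h3
    exact (algebraMap k E).injective h4
  have : NeZero n := ⟨hn.ne'⟩
  obtain ⟨i, hi, hiη⟩ := X.hζ.eq_pow_of_pow_eq_one hηn
  refine ⟨i, hi, ?_⟩
  -- `y / u^i` is fixed
  have hu0 : X.u ^ i ≠ 0 := pow_ne_zero _ (X.u_ne_zero hn)
  have hfixed : X.σ (y / X.u ^ i) = y / X.u ^ i := by
    rw [map_div₀, map_pow, X.hσ, hσy, ← hiη, mul_pow, ← map_pow]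
    have hζi : algebraMap k E (X.ζ ^ i) ≠ 0 := by
      rw [ne_eq, map_eq_zero]
      exact pow_ne_zero _ (X.hζ.ne_zero hn.ne')
    field_simp
  obtain ⟨c', hc'⟩ := X.mem_range_of_fixed hn hnk hfixed
  exact ⟨c', by rw [hc', div_mul_cancel₀ _ hu0]⟩

end KummerDatum

/-! ### transfer of the ramification condition -/

/-- If `y ≠ 0` in `E` has `y^(n m) = c ∈ κ` with `ord_v c = m a`, `(a, n) = 1`, then
`(ord_v δ, n) = 1`. -/
theorem isCoprime_ord_of_pow (hn : 0 < n) (hnk : (n : k) ≠ 0) {y : E} (hy0 : y ≠ 0) {m : ℕ}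
    (hm : 0 < m) {c : κ} (hy : y ^ (n * m) = algebraMap κ E c) {ζN : k}
    (hζN : IsPrimitiveRoot ζN (n * m)) (v : Place k κ) {a : ℤ} (hv : v.ord c = (m : ℤ) * a)
    (ha : IsCoprime a (n : ℤ)) : IsCoprime (v.ord X.δ) (n : ℤ) := by
  obtain ⟨i, -, c', hc'⟩ := X.exists_eq_mul_pow hn hnk hy0 (Nat.mul_pos hn hm) hy hζN
  have hc'0 : c' ≠ 0 := by
    rintro rfl
    rw [map_zero, zero_mul] at hc'
    exact hy0 hc'
  -- `c = c'^(n m) δ^(i m)`
  have hc : c = c' ^ (n * m) * X.δ ^ (i * m) := by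
    apply (algebraMap κ E).injective
    rw [← hy, hc', mul_pow, map_mul, map_pow, map_pow, ← X.hu, ← pow_mul, ← pow_mul]
    congr 2
    ring
  have hord : v.ord c = ((n * m : ℕ) : ℤ) * v.ord c' + ((i * m : ℕ) : ℤ) * v.ord X.δ := by
    rw [hc, v.ord_mul (pow_ne_zero _ hc'0) (pow_ne_zero _ X.hδ), ← zpow_natCast, ← zpow_natCast,
      v.ord_zpow, v.ord_zpow]
  rw [hv] at hord
  have hm0 : (m : ℤ) ≠ 0 := by exact_mod_cast hm.ne'
  have ha' : a = (n : ℤ) * v.ord c' + (i : ℤ) * v.ord X.δ := by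
    apply mul_left_cancel₀ hm0
    rw [hord]
    push_cast
    ring
  obtain ⟨s, t, hst⟩ := ha
  refine ⟨s * (i : ℤ), s * v.ord c' + t, ?_⟩
  rw [← hst, ha']
  ring

section RHLocal

variable [FiniteDimensional κ E]
  [HasPrincipalDivisors k κ] [HasPrincipalDivisors k E] [FundamentalIdentity k κ E]

include X in
/-- **Riemann–Hurwitz inequality from local witnesses**: at every `v ∈ T` there is `y ≠ 0` in `E`
with `y^(n m) = c ∈ κ`, `ord_v c = m a`, `(a, n) = 1` (for the middle components: `n = d`,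
`m = 2`, `y` the residue of `U_f / (ζ - 1)` for a local parameter `f` at `v`, `a = -1`). -/
theorem riemann_hurwitz_ge_of_local (hκ : RiemannPkg k κ) (hE : RiemannPkg k E) (hn : 0 < n)
    (hfr : Module.finrank κ E = n) {m : ℕ} (hm : 0 < m) {ζN : k}
    (hζN : IsPrimitiveRoot ζN (n * m)) (T : Finset (Place k κ))
    (hT : ∀ v ∈ T, ∃ (y : E) (c : κ) (a : ℤ), y ≠ 0 ∧ y ^ (n * m) = algebraMap κ E c ∧
      v.ord c = (m : ℤ) * a ∧ IsCoprime a (n : ℤ)) :
    (n : ℤ) * (2 * (genusFF k κ : ℤ) - 2) + (T.card : ℤ) * ((n : ℤ) - 1) ≤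
      2 * (genusFF k E : ℤ) - 2 := by
  refine riemann_hurwitz_ge_of_coprime X hκ hE hn hfr T fun v hv => ?_
  obtain ⟨y, c, a, hy0, hy, hvc, ha⟩ := hT v hv
  exact isCoprime_ord_of_pow X hn (natCast_ne_zero X hn) hy0 hm hy hζN v hvc ha

end RHLocal

end Fermat.Agent.BR3.KummerGenus
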