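import Mathlib
import Fermat.Agent.BR3.KummerGenus.Main

/-!
# Program C (S36), node A12 (C-GENUS-K), file 4: Kummer data from a power basis

`pb : PowerBasis κ E` with `pb.gen ^ pb.dim = δ ∈ κ^×` and a primitive `pb.dim`-th root of unity
`ζ` in the constant field `k`: then `X^n - δ` is the minimal polynomial of `pb.gen`, the
automorphism `u ↦ ζ u` exists (`KummerDatum.ofPowerBasis`), and the Riemann–Hurwitz inequality
holds in the form `riemann_hurwitz_ge_of_powerBasis`; `…_of_adjoin_eq_top` starts from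
`Algebra.adjoin κ {u} = ⊤`, `[E : κ] = n`, `uⁿ = δ`.
-/

set_option autoImplicit false
set_option linter.unusedSectionVars false

noncomputable section

namespace Fermat.Agent.BR3.KummerGenus

open AlgebraicCurve Fermat.Agent.Red Polynomial

variable {k κ E : Type*} [Field k] [Field κ] [Field E] [Algebra k κ] [Algebra k E] [Algebra κ E]
  [IsScalarTower k κ E]

section MinPoly

/-- If `x` generates a power basis of dimension `n` and `xⁿ = δ ∈ κ` then `minpoly x = Xⁿ - δ`. -/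
theorem minpoly_eq_X_pow_sub_C (pb : PowerBasis κ E) (δ : κ)
    (hpb : pb.gen ^ pb.dim = algebraMap κ E δ) :
    minpoly κ pb.gen = X ^ pb.dim - C δ := by
  have hdim : pb.dim ≠ 0 := pb.dim_pos.ne'
  have hmonic : (X ^ pb.dim - C δ : κ[X]).Monic := monic_X_pow_sub_C δ hdim
  have hdvd : minpoly κ pb.gen ∣ X ^ pb.dim - C δ := by
    apply minpoly.dvd
    rw [map_sub, map_pow, aeval_X, aeval_C, hpb, sub_self]
  have hdeg : (X ^ pb.dim - C δ : κ[X]).natDegree ≤ (minpoly κ pb.gen).natDegree := by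
    rw [natDegree_X_pow_sub_C, pb.natDegree_minpoly]
  exact (eq_of_monic_of_dvd_of_natDegree_le (minpoly.monic pb.isIntegral_gen) hmonic hdvd hdeg).symm

end MinPoly

/-- **Kummer data from a power basis.** -/
def KummerDatum.ofPowerBasis (pb : PowerBasis κ E) (δ : κ) (hδ : δ ≠ 0)
    (hpb : pb.gen ^ pb.dim = algebraMap κ E δ) (ζ : k) (hζ : IsPrimitiveRoot ζ pb.dim) :
    KummerDatum k κ E pb.dim := by
  have hζ0 : ζ ≠ 0 := hζ.ne_zero pb.dim_pos.ne'
  have hζE : algebraMap k E ζ ≠ 0 := by simpa using hζ0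
  -- the second generator
  have hint : IsIntegral κ (algebraMap k E ζ * pb.gen) := by
    rw [IsScalarTower.algebraMap_apply k κ E]
    exact (isIntegral_algebraMap).mul pb.isIntegral_gen
  have hmem : pb.gen ∈ Algebra.adjoin κ {algebraMap k E ζ * pb.gen} := by
    have h1 : pb.gen = algebraMap κ E (algebraMap k κ ζ⁻¹) * (algebraMap k E ζ * pb.gen) := by
      rw [← IsScalarTower.algebraMap_apply k κ E, ← mul_assoc, ← map_mul, inv_mul_cancel₀ hζ0,
        map_one, one_mul]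
    have h2 : algebraMap κ E (algebraMap k κ ζ⁻¹) * (algebraMap k E ζ * pb.gen) ∈
        Algebra.adjoin κ {algebraMap k E ζ * pb.gen} :=
      Subalgebra.mul_mem _ (Subalgebra.algebraMap_mem _ _)
        (Algebra.subset_adjoin (Set.mem_singleton _))
    rwa [← h1] at h2
  have htop : Algebra.adjoin κ {algebraMap k E ζ * pb.gen} = ⊤ := by
    rw [eq_top_iff, ← pb.adjoin_gen_eq_top]
    exact Algebra.adjoin_le (Set.singleton_subset_iff.mpr hmem)
  let pb' : PowerBasis κ E := PowerBasis.ofAdjoinEqTop hint htop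
  have hgen' : pb'.gen = algebraMap k E ζ * pb.gen := rfl
  have hdim' : pb'.dim = pb.dim := by
    have h1 := pb'.finrank
    have h2 := pb.finrank
    omega
  have hpb' : pb'.gen ^ pb'.dim = algebraMap κ E δ := by
    rw [hgen', hdim', mul_pow, ← map_pow, hζ.pow_eq_one, map_one, one_mul, hpb]
  have hmin : minpoly κ pb.gen = minpoly κ pb'.gen := by
    rw [minpoly_eq_X_pow_sub_C pb δ hpb, minpoly_eq_X_pow_sub_C pb' δ hpb', hdim']
  exact
    { u := pb.gen
      δ := δ
      hδ := hδ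
      hu := hpb
      b := pb.basis
      hb := fun l => by rw [pb.coe_basis]
      ζ := ζ
      hζ := hζ
      σ := pb.equivOfMinpoly pb' hmin
      hσ := by rw [PowerBasis.equivOfMinpoly_gen, hgen'] }

@[simp]
theorem KummerDatum.ofPowerBasis_δ (pb : PowerBasis κ E) (δ : κ) (hδ : δ ≠ 0)
    (hpb : pb.gen ^ pb.dim = algebraMap κ E δ) (ζ : k) (hζ : IsPrimitiveRoot ζ pb.dim) :
    (KummerDatum.ofPowerBasis pb δ hδ hpb ζ hζ).δ = δ := rfl

variable [FiniteDimensional κ E] [HasPrincipalDivisors k κ] [HasPrincipalDivisors k E]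
  [FundamentalIdentity k κ E]

/-- **Riemann–Hurwitz inequality, power basis form.** -/
theorem riemann_hurwitz_ge_of_powerBasis (hκ : RiemannPkg k κ) (hE : RiemannPkg k E)
    (pb : PowerBasis κ E) (δ : κ) (hδ : δ ≠ 0) (hpb : pb.gen ^ pb.dim = algebraMap κ E δ)
    (ζ : k) (hζ : IsPrimitiveRoot ζ pb.dim) (T : Finset (Place k κ))
    (hT : ∀ v ∈ T, (pb.dim : ℤ) ∣ v.ord δ + 1) :
    (pb.dim : ℤ) * (2 * (genusFF k κ : ℤ) - 2) + (T.card : ℤ) * ((pb.dim : ℤ) - 1) ≤
      2 * (genusFF k E : ℤ) - 2 :=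
  riemann_hurwitz_ge (KummerDatum.ofPowerBasis pb δ hδ hpb ζ hζ) hκ hE pb.dim_pos pb.finrank T hT

/-- **Riemann–Hurwitz inequality** for `E = κ(u)`, `uⁿ = δ`, `[E : κ] = n`, `ζ ∈ k` a primitive
`n`-th root of unity, `ord_v δ ≡ -1 (mod n)` for `v ∈ T`. -/
theorem riemann_hurwitz_ge_of_adjoin_eq_top (hκ : RiemannPkg k κ) (hE : RiemannPkg k E)
    {n : ℕ} (hfr : Module.finrank κ E = n) (u : E) (hu : Algebra.adjoin κ {u} = ⊤)
    (δ : κ) (hδ : δ ≠ 0) (hun : u ^ n = algebraMap κ E δ)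
    (ζ : k) (hζ : IsPrimitiveRoot ζ n) (T : Finset (Place k κ))
    (hT : ∀ v ∈ T, (n : ℤ) ∣ v.ord δ + 1) :
    (n : ℤ) * (2 * (genusFF k κ : ℤ) - 2) + (T.card : ℤ) * ((n : ℤ) - 1) ≤
      2 * (genusFF k E : ℤ) - 2 := by
  have hint : IsIntegral κ u := Algebra.IsIntegral.isIntegral u
  let pb : PowerBasis κ E := PowerBasis.ofAdjoinEqTop hint hu
  have hdim : pb.dim = n := by rw [← pb.finrank, hfr]
  have hgen : pb.gen = u := rfl
  subst hdim
  exact riemann_hurwitz_ge_of_powerBasis hκ hE pb δ hδ (by rw [hgen]; exact hun) ζ hζ T hT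

end Fermat.Agent.BR3.KummerGenus
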