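import Mathlib
import Fermat.Agent.BR3.KummerGenus.OfPowerBasis
import Fermat.Agent.BR3.KummerGenus.Coprime

/-!
# Program C (S36), nodes (W3-MID) + (G2-MID), file 3: the degree of a radical

* `exists_pow_natDegree_minpoly_eq` (Kummer): if `θ ^ m = γ ∈ κ`, `θ ≠ 0`, and `κ` contains a
  primitive `m`-th root of unity, then `θ ^ d ∈ κ^×` for `d` the degree of `θ` over `κ`
  (the constant term of the minimal polynomial is `± ζ^s θ^d`);
* `KummerDatum.ofPowerBasis'` : `KummerDatum.ofPowerBasis` with a prescribed value `n` of the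
  dimension (`pb.dim = n` propositionally), with `rfl`-like lemmas for `u` and `δ`;
* `KummerDatum.exists_eq_pow_mul_delta_pow` (Kummer transfer, power form),
  `isCoprime_ord_of_pow_of_ord_neg_two`, `eq_two_of_ord_neg_two` : a local witness `y^(n m) = c`,
  `m ≥ 2`, `ord_v c = −2` forces `m = 2` and `(ord_v δ, n) = 1`.
-/

set_option autoImplicit false
set_option linter.unusedSectionVars false

noncomputable section

namespace Fermat.Agent.BR3.KummerGenus

open Polynomial AlgebraicCurve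

section PowDeg

variable {κ E : Type*} [Field κ] [Field E] [Algebra κ E]

/-- products of elements of the shape `c • θ` -/
theorem multiset_prod_eq_mul_pow (θ : E) (s : Multiset E)
    (hs : ∀ r ∈ s, ∃ c : κ, c ≠ 0 ∧ r = algebraMap κ E c * θ) :
    ∃ c : κ, c ≠ 0 ∧ s.prod = algebraMap κ E c * θ ^ (Multiset.card s) := by
  induction s using Multiset.induction_on with
  | empty => exact ⟨1, one_ne_zero, by simp⟩
  | cons a s ih =>
    obtain ⟨c, hc0, hc⟩ := ih fun r hr => hs r (Multiset.mem_cons_of_mem hr)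
    obtain ⟨c', hc'0, hc'⟩ := hs a (Multiset.mem_cons_self a s)
    refine ⟨c' * c, mul_ne_zero hc'0 hc0, ?_⟩
    rw [Multiset.prod_cons, Multiset.card_cons, hc, hc', map_mul, pow_succ]
    ring

/-- **Kummer:** if `θ ^ m ∈ κ` and `κ` contains a primitive `m`-th root of unity then
`θ ^ d ∈ κ` for `d` the degree of `θ` over `κ`. -/
theorem exists_pow_natDegree_minpoly_eq {m : ℕ} (hm : 0 < m) {ζ : κ} (hζ : IsPrimitiveRoot ζ m)
    {θ : E} (hθ0 : θ ≠ 0) {γ : κ} (hθ : θ ^ m = algebraMap κ E γ) :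
    ∃ δ : κ, δ ≠ 0 ∧ θ ^ (minpoly κ θ).natDegree = algebraMap κ E δ := by
  have hroot : aeval θ (X ^ m - C γ : κ[X]) = 0 := by
    rw [map_sub, map_pow, aeval_X, aeval_C, hθ, sub_self]
  have hint : IsIntegral κ θ := ⟨X ^ m - C γ, monic_X_pow_sub_C _ hm.ne', hroot⟩
  set p := minpoly κ θ with hp
  have hpm : p.Monic := minpoly.monic hint
  have hdvd : p ∣ X ^ m - C γ := minpoly.dvd _ _ hroot
  have hζE : IsPrimitiveRoot (algebraMap κ E ζ) m :=
    hζ.map_of_injective (algebraMap κ E).injective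
  have hmap : (X ^ m - C γ : κ[X]).map (algebraMap κ E) = X ^ m - C (algebraMap κ E γ) := by
    rw [Polynomial.map_sub, Polynomial.map_pow, map_X, map_C]
  have hsplit : ((X ^ m - C γ : κ[X]).map (algebraMap κ E)).Splits := by
    rw [hmap]
    exact X_pow_sub_C_splits_of_isPrimitiveRoot hζE hθ
  have hne : (X ^ m - C γ : κ[X]).map (algebraMap κ E) ≠ 0 := by
    rw [hmap]
    exact X_pow_sub_C_ne_zero hm _
  have hps : (p.map (algebraMap κ E)).Splits :=
    hsplit.of_dvd hne (Polynomial.map_dvd _ hdvd)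
  have hγ0 : algebraMap κ E γ ≠ 0 := by
    rw [← hθ]
    exact pow_ne_zero _ hθ0
  have hroots : ∀ r ∈ (p.map (algebraMap κ E)).roots,
      ∃ c : κ, c ≠ 0 ∧ r = algebraMap κ E c * θ := by
    intro r hr
    have hr0 : (p.map (algebraMap κ E)).IsRoot r := (mem_roots'.1 hr).2
    have hr1 : ((X ^ m - C γ : κ[X]).map (algebraMap κ E)).IsRoot r :=
      hr0.dvd (Polynomial.map_dvd _ hdvd)
    rw [hmap, IsRoot.def, eval_sub, eval_pow, eval_X, eval_C, sub_eq_zero] at hr1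
    have h1 : (r / θ) ^ m = 1 := by
      rw [div_pow, hr1, hθ, div_self hγ0]
    have : NeZero m := ⟨hm.ne'⟩
    obtain ⟨i, -, hi⟩ := hζE.eq_pow_of_pow_eq_one h1
    refine ⟨ζ ^ i, pow_ne_zero _ (hζ.ne_zero hm.ne'), ?_⟩
    rw [map_pow, hi, div_mul_cancel₀ _ hθ0]
  obtain ⟨c, hc0, hc⟩ := multiset_prod_eq_mul_pow θ _ hroots
  have h0 := hps.coeff_zero_eq_prod_roots_of_monic (hpm.map _)
  rw [coeff_map, hc, ← hps.natDegree_eq_card_roots, hpm.natDegree_map] at h0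
  have hcE : algebraMap κ E c ≠ 0 := (_root_.map_ne_zero _).2 hc0
  have hp0 : p.coeff 0 ≠ 0 := minpoly.coeff_zero_ne_zero hint hθ0
  refine ⟨(-1) ^ p.natDegree * p.coeff 0 / c,
    div_ne_zero (mul_ne_zero (pow_ne_zero _ (neg_ne_zero.2 one_ne_zero)) hp0) hc0, ?_⟩
  rw [map_div₀, map_mul, h0, map_pow, map_neg, map_one, eq_div_iff hcE]
  have : ((-1 : E) ^ p.natDegree) * ((-1) ^ p.natDegree) = 1 := by
    rw [← mul_pow, neg_one_mul, neg_neg, one_pow]
  calc θ ^ p.natDegree * algebraMap κ E c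
      = ((-1 : E) ^ p.natDegree * (-1) ^ p.natDegree) * (algebraMap κ E c * θ ^ p.natDegree) := by
        rw [this]; ring
    _ = _ := by ring

end PowDeg

section OfPB

variable {k κ E : Type*} [Field k] [Field κ] [Field E] [Algebra k κ] [Algebra k E] [Algebra κ E]
  [IsScalarTower k κ E]

/-- `KummerDatum.ofPowerBasis` with a prescribed value `n` of the dimension. -/
def KummerDatum.ofPowerBasis' (pb : PowerBasis κ E) {n : ℕ} (hn : pb.dim = n) (δ : κ)
    (hδ : δ ≠ 0) (hpb : pb.gen ^ n = algebraMap κ E δ) (ζ : k) (hζ : IsPrimitiveRoot ζ n) :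
    KummerDatum k κ E n := by
  subst hn
  exact KummerDatum.ofPowerBasis pb δ hδ hpb ζ hζ

@[simp]
theorem KummerDatum.ofPowerBasis'_δ (pb : PowerBasis κ E) {n : ℕ} (hn : pb.dim = n) (δ : κ)
    (hδ : δ ≠ 0) (hpb : pb.gen ^ n = algebraMap κ E δ) (ζ : k) (hζ : IsPrimitiveRoot ζ n) :
    (KummerDatum.ofPowerBasis' pb hn δ hδ hpb ζ hζ).δ = δ := by
  subst hn
  rfl

@[simp]
theorem KummerDatum.ofPowerBasis'_u (pb : PowerBasis κ E) {n : ℕ} (hn : pb.dim = n) (δ : κ)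
    (hδ : δ ≠ 0) (hpb : pb.gen ^ n = algebraMap κ E δ) (ζ : k) (hζ : IsPrimitiveRoot ζ n) :
    (KummerDatum.ofPowerBasis' pb hn δ hδ hpb ζ hζ).u = pb.gen := by
  subst hn
  rfl

end OfPB

section Transfer

variable {k κ E : Type*} [Field k] [Field κ] [Field E] [Algebra k κ] [Algebra k E] [Algebra κ E]
  [IsScalarTower k κ E]
variable {n : ℕ} (X : KummerDatum k κ E n)

/-- **Kummer transfer, power form**: `y ≠ 0`, `y^(n m) = c ∈ κ` ⟹ `c = c'^(n m) δ^(i m)`. -/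
theorem KummerDatum.exists_eq_pow_mul_delta_pow (hn : 0 < n) (hnk : (n : k) ≠ 0) {y : E}
    (hy0 : y ≠ 0) {m : ℕ} (hm : 0 < m) {c : κ} (hy : y ^ (n * m) = algebraMap κ E c) {ζN : k}
    (hζN : IsPrimitiveRoot ζN (n * m)) :
    ∃ (i : ℕ) (c' : κ), c' ≠ 0 ∧ c = c' ^ (n * m) * X.δ ^ (i * m) := by
  obtain ⟨i, -, c', hc'⟩ := X.exists_eq_mul_pow hn hnk hy0 (Nat.mul_pos hn hm) hy hζN
  have hc'0 : c' ≠ 0 := by
    rintro rfl
    rw [map_zero, zero_mul] at hc'
    exact hy0 hc'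
  refine ⟨i, c', hc'0, ?_⟩
  apply (algebraMap κ E).injective
  rw [← hy, hc', mul_pow, map_mul, map_pow, map_pow, ← X.hu, ← pow_mul, ← pow_mul]
  congr 2
  ring

/-- the order of `c = c'^(n m) δ^(i m)` -/
theorem ord_eq_mul_of_eq_pow_mul (v : Place k κ) {c c' δ : κ} (hc'0 : c' ≠ 0) (hδ0 : δ ≠ 0)
    {i m : ℕ} (hc : c = c' ^ (n * m) * δ ^ (i * m)) :
    v.ord c = (m : ℤ) * ((n : ℤ) * v.ord c' + (i : ℤ) * v.ord δ) := by
  rw [hc, v.ord_mul (pow_ne_zero _ hc'0) (pow_ne_zero _ hδ0), ← zpow_natCast, ← zpow_natCast,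
    v.ord_zpow, v.ord_zpow]
  push_cast
  ring

/-- `m ≥ 2`, `m a = -2` ⟹ `a = -1` -/
theorem eq_neg_one_of_mul_eq_neg_two {m : ℕ} {a : ℤ} (hm : 2 ≤ m) (h : (m : ℤ) * a = -2) :
    a = -1 := by
  have hm2 : (2 : ℤ) ≤ (m : ℤ) := by exact_mod_cast hm
  have h1 : a < 0 := by
    by_contra hcon
    rw [not_lt] at hcon
    have : 0 ≤ (m : ℤ) * a := mul_nonneg (by linarith) hcon
    linarith
  have h3 : -1 ≤ a := by
    by_contra hcon
    rw [not_le] at hcon
    have : (m : ℤ) * a ≤ (m : ℤ) * (-2) :=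
      mul_le_mul_of_nonneg_left (by linarith) (by linarith)
    linarith
  linarith

/-- **coprimality from a witness of order `−2`** when `m ≥ 2`: `y ≠ 0`, `y^(n m) = c ∈ κ`,
`ord_v c = −2` ⟹ `(ord_v δ, n) = 1` (and in fact `m = 2`). -/
theorem isCoprime_ord_of_pow_of_ord_neg_two (hn : 0 < n) (hnk : (n : k) ≠ 0) {y : E}
    (hy0 : y ≠ 0) {m : ℕ} (hm : 2 ≤ m) {c : κ} (hy : y ^ (n * m) = algebraMap κ E c) {ζN : k}
    (hζN : IsPrimitiveRoot ζN (n * m)) (v : Place k κ) (hv : v.ord c = -2) :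
    IsCoprime (v.ord X.δ) (n : ℤ) := by
  have hm0 : 0 < m := by omega
  obtain ⟨i, c', hc'0, hc⟩ := X.exists_eq_pow_mul_delta_pow hn hnk hy0 hm0 hy hζN
  have hord := ord_eq_mul_of_eq_pow_mul (n := n) v hc'0 X.hδ hc
  rw [hv] at hord
  have ha := eq_neg_one_of_mul_eq_neg_two hm hord.symm
  refine isCoprime_ord_of_pow X hn hnk hy0 hm0 hy hζN v (a := -1) ?_ ?_
  · rw [hv, ← ha, ← hord]
  · exact (isCoprime_one_left (x := (n : ℤ))).neg_left

include X in
/-- … and then `m = 2` -/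
theorem eq_two_of_ord_neg_two (hn : 0 < n) (hnk : (n : k) ≠ 0) {y : E}
    (hy0 : y ≠ 0) {m : ℕ} (hm : 2 ≤ m) {c : κ} (hy : y ^ (n * m) = algebraMap κ E c) {ζN : k}
    (hζN : IsPrimitiveRoot ζN (n * m)) (v : Place k κ) (hv : v.ord c = -2) : m = 2 := by
  have hm0 : 0 < m := by omega
  obtain ⟨i, c', hc'0, hc⟩ := X.exists_eq_pow_mul_delta_pow hn hnk hy0 hm0 hy hζN
  have hord := ord_eq_mul_of_eq_pow_mul (n := n) v hc'0 X.hδ hc
  rw [hv] at hord
  have ha := eq_neg_one_of_mul_eq_neg_two hm hord.symm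
  rw [ha] at hord
  have : (m : ℤ) = 2 := by linarith
  exact_mod_cast this

end Transfer

end Fermat.Agent.BR3.KummerGenus
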