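import Fermat.Agent.BR3.KummerGenus.MidPlaces
import Fermat.Agent.BR3.KummerGenus.PowDeg
import Fermat.Agent.BR3.FibreProdMidRes
import Fermat.Agent.BR3.IgSq.Uniform

/-!
# Program C (S36), nodes (W3-MID) + (G2-MID), concrete half: the middle components

`FMid M B = F̃_M(θ j̃)` (helper6, `FibreProdMidRes`) is the residue field of every middle valuation
`w₂ b` of `F̄_{Mq²}` (`constRedMid b`), of degree `fMid` over `F̃_M` = the function field of
`X₀(M)` over `k = k_B`.  Here (`kB`, `FtM` as in `FibreProdMidRes`):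

* `gammaMid : F̃_M` with `thetaMid ^ (q-1) = γ`; `pbMid` (power basis, `pbMid_dim = fMid`);
  `deltaMid : F̃_M^×` with `thetaMid ^ fMid = δ` (`exists_deltaMid`, by
  `exists_pow_natDegree_minpoly_eq`), `deltaMid_pow : δ^((q-1)/fMid) = γ`;
* **`midDatum : KummerDatum kB F̃_M (FMid M B) fMid`** (`midDatum_u = thetaMid`,
  `midDatum_δ = deltaMid`);
* **`riemannPkg_FMid : RiemannPkg kB (FMid M B)`** (+ `riemannPkg_FtM`);
* **`pMidOver v hv : Place kB (FMid M B)`** = THE place over a point `v` of `F̃_M` with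
  `hv : IsCoprime (ord_v δ) fMid`: `pMidOver_restrict`, `eq_pMidOver` (uniqueness),
  `pMidOver_injective`, `ramificationIndex_pMidOver = fMid`, `ord_pMidOver_algebraMap`,
  `ord_pMidOver_thetaMid`;
* `fMid_le_midDeg` (from (C-IG-SQ)); the coprimality `hv` from LOCAL witnesses:
  `isCoprime_ord_deltaMid_of_witness` (helper29's `isCoprime_ord_of_pow`),
  `isCoprime_ord_deltaMid_of_ord_neg_two` (`y ≠ 0`, `y^(q-1) = c`, `ord_v c = −2`),
  `isCoprime_ord_deltaMid_of_ord_gamma`; **`fMid_eq_midDeg_of_ord_neg_two`** (`fMid = midDeg q`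
  from ONE such witness), `ord_deltaMid_of_ord_gamma` (`ord_v δ = −1`, `q` odd);
* **`two_genus_ge_mid`** : `fMid (2 g(F̃_M) − 2) + |T| (fMid − 1) ≤ 2 g(FMid) − 2`.
-/

set_option autoImplicit false
set_option linter.style.haveILetI false
set_option linter.unusedSectionVars false

noncomputable section

set_option synthInstance.maxHeartbeats 400000

namespace Fermat.Agent.BR3.KummerGenus.MidInst

open ModularCurve AlgebraicCurve HahnSeries Polynomial Fermat.Agent.X0 Fermat.Agent.Val
open Fermat.Agent.Hecke.AL Fermat.Agent.Igusa Fermat.Agent.BR.Kron Fermat.Agent.BR3.IgSq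
open Fermat.Agent.BR.TwoVal Fermat.Agent.BR.ResGen Fermat.Agent.Jac Fermat.Agent.Jac.ALF
open Fermat.Agent.BR.TwoValInst Fermat.Agent.BR.ValTwo Fermat.Agent.BR.ConstRedTwo
open Fermat.Agent.BR3.FibreProd Fermat.Agent.Red

variable {M q : ℕ} [NeZero M] [hq : Fact q.Prime]
variable (B : ValuationSubring (AlgebraicClosure ℚ)) (hB : B.LiesOverPrime q) (hqM : ¬ q ∣ M)

local notation "kB" => IsLocalRing.ResidueField B
local notation "FtM" => modularFunctionFieldFullC (IsLocalRing.ResidueField B) M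

/-- (shortcut instances: the search through the generic instances costs seconds per declaration) -/
local instance (priority := 100000) instAlgKFt : Algebra kB FtM := inferInstance
local instance (priority := 100000) instAlgKFMid : Algebra kB (FMid M B) := inferInstance
local instance (priority := 100000) instAlgFtFMid : Algebra FtM (FMid M B) := inferInstance
local instance (priority := 100000) instTowerMid : IsScalarTower kB FtM (FMid M B) :=
  inferInstance

theorem thetaMid_ne_zero : (thetaMid (M := M) B : FMid M B) ≠ 0 := fun h =>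
  thetaL_jqModC_ne_zero B (congrArg Subtype.val h)

include hB hqM in
theorem thetaL_pow_mem : thetaL kB (jqModC kB) ^ (q - 1) ∈ FtM := by
  obtain ⟨ζ₀, hζ₀⟩ := HasEnoughRootsOfUnity.exists_primitiveRoot Kb q
  have hζu : IsPrimitiveRoot (hζ₀.isUnit (NeZero.ne q)).unit q := by
    rw [← IsPrimitiveRoot.coe_units_iff]
    exact hζ₀
  obtain ⟨g, hg, hres⟩ := exists_res1_eq_thetaL_pow B hB hqM hζu
  rw [← hres]
  exact (mem_kappaCan_iff_mem_fullC B hB hqM).1 (res1_mem_kappaCan B hB _)

/-- `γ = (θ j̃)^{q-1} ∈ F̃_M` -/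
def gammaMid : FtM := ⟨thetaL kB (jqModC kB) ^ (q - 1), thetaL_pow_mem B hB hqM⟩

theorem thetaMid_pow :
    (thetaMid (M := M) B : FMid M B) ^ (q - 1) = algebraMap FtM (FMid M B) (gammaMid B hB hqM) :=
  Subtype.ext rfl

/-! ### The power basis, the Kummer equation of degree `fMid` and the Kummer datum -/

include hB in
theorem charP_kB' : CharP kB q := charP_kB B hB

theorem isAlgClosed_kB : IsAlgClosed kB := Fermat.Agent.Val.residueField_isAlgClosed B

include hB hqM in
theorem isIntegral_thetaMid : IsIntegral FtM (thetaMid (M := M) B : FMid M B) := by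
  have h := (natDegree_minpoly_fullC B hB hqM).1
  rw [← isIntegral_algebraMap_iff (algebraMap (FMid M B) (LaurentSeries kB)).injective]
  exact h

include hB hqM in
theorem natDegree_minpoly_thetaMid :
    (minpoly FtM (thetaMid (M := M) B : FMid M B)).natDegree = fMid M B hB := by
  have h := (natDegree_minpoly_fullC B hB hqM).2
  rw [← h]
  congr 1
  exact (minpoly.algebraMap_eq (algebraMap (FMid M B) (LaurentSeries kB)).injective _).symm

/-- the power basis `1, θ, …, θ^{f-1}` of `F̃_M(θ j̃)` over `F̃_M` -/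
def pbMid : PowerBasis FtM (FMid M B) :=
  IntermediateField.adjoin.powerBasis (natDegree_minpoly_fullC B hB hqM).1

theorem pbMid_gen : (pbMid B hB hqM).gen = thetaMid B := rfl

theorem pbMid_dim : (pbMid B hB hqM).dim = fMid M B hB := by
  rw [← (pbMid B hB hqM).natDegree_minpoly, pbMid_gen, natDegree_minpoly_thetaMid B hB hqM]

include hB in
theorem natCast_ne_zero_of_dvd {d : ℕ} (hd : d ∣ q - 1) : ((d : ℕ) : kB) ≠ 0 := by
  haveI := charP_kB B hB
  intro h0
  have h1 : q ∣ d := (CharP.cast_eq_zero_iff kB q d).1 h0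
  have h2 : q ∣ q - 1 := h1.trans hd
  have h3 := Nat.le_of_dvd (by have := hq.out.two_le; omega) h2
  have := hq.out.two_le
  omega

include hB in
/-- a primitive `d`-th root of unity in `k`, for `d ∣ q - 1` -/
theorem exists_primitiveRoot_kB {d : ℕ} (hd : d ∣ q - 1) : ∃ ζ : kB, IsPrimitiveRoot ζ d := by
  haveI := isAlgClosed_kB B
  haveI : NeZero ((d : ℕ) : kB) := ⟨natCast_ne_zero_of_dvd B hB hd⟩
  exact HasEnoughRootsOfUnity.exists_primitiveRoot kB d

include hB hqM in
theorem fMid_dvd' : fMid M B hB ∣ q - 1 := by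
  obtain ⟨ζ₀, hζ₀⟩ := HasEnoughRootsOfUnity.exists_primitiveRoot Kb q
  have hζu : IsPrimitiveRoot (hζ₀.isUnit (NeZero.ne q)).unit q := by
    rw [← IsPrimitiveRoot.coe_units_iff]
    exact hζ₀
  exact fMid_dvd B hB hqM hζu

include hB hqM in
/-- **the Kummer equation of degree `fMid`**: `(θ j̃)^{fMid} ∈ F̃_M^×` -/
theorem exists_deltaMid :
    ∃ δ : FtM, δ ≠ 0 ∧
      (thetaMid (M := M) B : FMid M B) ^ fMid M B hB = algebraMap FtM (FMid M B) δ := by
  obtain ⟨ζ, hζ⟩ := exists_primitiveRoot_kB B hB (dvd_refl (q - 1))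
  have hζ' : IsPrimitiveRoot (algebraMap kB FtM ζ) (q - 1) :=
    hζ.map_of_injective (algebraMap kB FtM).injective
  have hpos : 0 < q - 1 := by have := hq.out.two_le; omega
  have h := exists_pow_natDegree_minpoly_eq hpos hζ' (thetaMid_ne_zero B) (thetaMid_pow B hB hqM)
  rwa [natDegree_minpoly_thetaMid B hB hqM] at h

/-- `δ = (θ j̃)^{fMid} ∈ F̃_M` -/
def deltaMid : FtM := (exists_deltaMid B hB hqM).choose

theorem deltaMid_ne_zero : deltaMid B hB hqM ≠ 0 := (exists_deltaMid B hB hqM).choose_spec.1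

theorem thetaMid_pow_fMid :
    (thetaMid (M := M) B : FMid M B) ^ fMid M B hB =
      algebraMap FtM (FMid M B) (deltaMid B hB hqM) :=
  (exists_deltaMid B hB hqM).choose_spec.2

/-- `δ^{(q-1)/fMid} = γ` -/
theorem deltaMid_pow : deltaMid B hB hqM ^ ((q - 1) / fMid M B hB) = gammaMid B hB hqM := by
  apply (algebraMap FtM (FMid M B)).injective
  rw [map_pow, ← thetaMid_pow_fMid, ← pow_mul, Nat.mul_div_cancel' (fMid_dvd' B hB hqM),
    thetaMid_pow]

/-- a primitive `fMid`-th root of unity in `k` -/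
def zetaMid : kB := (exists_primitiveRoot_kB B hB (fMid_dvd' B hB hqM)).choose

theorem zetaMid_spec : IsPrimitiveRoot (zetaMid B hB hqM) (fMid M B hB) :=
  (exists_primitiveRoot_kB B hB (fMid_dvd' B hB hqM)).choose_spec

/-- **The Kummer datum of `F̃_M(θ j̃) / F̃_M`**: `u = θ j̃`, `u^{fMid} = δ`. -/
def midDatum : KummerDatum kB FtM (FMid M B) (fMid M B hB) :=
  KummerDatum.ofPowerBasis' (pbMid B hB hqM) (pbMid_dim B hB hqM) (deltaMid B hB hqM)
    (deltaMid_ne_zero B hB hqM) (thetaMid_pow_fMid B hB hqM) (zetaMid B hB hqM)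
    (zetaMid_spec B hB hqM)

@[simp] theorem midDatum_u : (midDatum B hB hqM).u = thetaMid B :=
  KummerDatum.ofPowerBasis'_u _ _ _ _ _ _ _

@[simp] theorem midDatum_δ : (midDatum B hB hqM).δ = deltaMid B hB hqM :=
  KummerDatum.ofPowerBasis'_δ _ _ _ _ _ _ _

/-! ### The Riemann packages -/

include hB hqM in
/-- the Riemann package of `F̃_M` (main's `riemannPkg_modL_residueField`) -/
theorem riemannPkg_FtM : RiemannPkg kB FtM :=
  Fermat.Agent.Val.riemannPkg_modL_residueField M hqM B hB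

include hB hqM in
/-- **(G2-MID) the Riemann package of the residue field of the middle components** -/
theorem riemannPkg_FMid : RiemannPkg kB (FMid M B) := by
  haveI := finiteDimensional_FMid B hB hqM
  haveI := isSeparable_FMid B hB hqM
  exact Fermat.Agent.BR3.RiemannPkgExt.riemannPkg_of_finite_separable_modL M hqM B hB

include hB hqM in
theorem fMid_natCast_ne_zero : ((fMid M B hB : ℕ) : FtM) ≠ 0 := by
  have h := natCast_ne_zero_of_dvd B hB (fMid_dvd' B hB hqM)
  intro h0
  apply h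
  apply (algebraMap kB FtM).injective
  rw [map_natCast, h0, map_zero]

/-! ### The Kummer places -/

/-- **(W3-MID) THE place of `F̃_M(θ j̃)` over a point `v` of `F̃_M` with `(ord_v δ, fMid) = 1`**
(totally ramified). -/
def pMidOver (v : Place kB FtM)
    (hv : IsCoprime (v.ord (deltaMid B hB hqM)) (fMid M B hB : ℤ)) : Place kB (FMid M B) :=
  haveI := finiteDimensional_FMid B hB hqM
  placeOver (midDatum B hB hqM) (riemannPkg_FtM B hB hqM) (riemannPkg_FMid B hB hqM)
    (finrank_FMid B hB hqM) (fMid_pos B hB hqM) (fMid_natCast_ne_zero B hB hqM) v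
    (by rw [midDatum_δ]; exact hv)

theorem pMidOver_restrict [FiniteDimensional FtM (FMid M B)] (v : Place kB FtM)
    (hv : IsCoprime (v.ord (deltaMid B hB hqM)) (fMid M B hB : ℤ)) :
    (pMidOver B hB hqM v hv).restrict FtM = v :=
  placeOver_restrict _ _ _ _ _ _ v _

theorem eq_pMidOver [FiniteDimensional FtM (FMid M B)] (v : Place kB FtM)
    (hv : IsCoprime (v.ord (deltaMid B hB hqM)) (fMid M B hB : ℤ)) {w : Place kB (FMid M B)}
    (hw : w.restrict FtM = v) : w = pMidOver B hB hqM v hv :=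
  eq_placeOver _ _ _ _ _ _ v _ hw

theorem pMidOver_injective {v v' : Place kB FtM}
    (hv : IsCoprime (v.ord (deltaMid B hB hqM)) (fMid M B hB : ℤ))
    (hv' : IsCoprime (v'.ord (deltaMid B hB hqM)) (fMid M B hB : ℤ))
    (h : pMidOver B hB hqM v hv = pMidOver B hB hqM v' hv') : v = v' := by
  haveI : FiniteDimensional FtM (FMid M B) := finiteDimensional_FMid B hB hqM
  rw [← pMidOver_restrict B hB hqM v hv, h, pMidOver_restrict]

/-- total ramification: `e = fMid` -/
theorem ramificationIndex_pMidOver [FiniteDimensional FtM (FMid M B)] (v : Place kB FtM)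
    (hv : IsCoprime (v.ord (deltaMid B hB hqM)) (fMid M B hB : ℤ)) :
    (pMidOver B hB hqM v hv).ramificationIndex FtM = fMid M B hB :=
  ramificationIndex_placeOver _ _ _ _ _ _ v _

theorem ord_pMidOver_algebraMap (v : Place kB FtM)
    (hv : IsCoprime (v.ord (deltaMid B hB hqM)) (fMid M B hB : ℤ)) (x : FtM) :
    (pMidOver B hB hqM v hv).ord (algebraMap FtM (FMid M B) x) = (fMid M B hB : ℤ) * v.ord x := by
  haveI : FiniteDimensional FtM (FMid M B) := finiteDimensional_FMid B hB hqM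
  exact ord_placeOver_algebraMap _ _ _ _ _ _ v _ x

theorem ord_pMidOver_thetaMid (v : Place kB FtM)
    (hv : IsCoprime (v.ord (deltaMid B hB hqM)) (fMid M B hB : ℤ)) :
    (pMidOver B hB hqM v hv).ord (thetaMid B) = v.ord (deltaMid B hB hqM) := by
  haveI : FiniteDimensional FtM (FMid M B) := finiteDimensional_FMid B hB hqM
  have h := ord_placeOver_u (midDatum B hB hqM) (riemannPkg_FtM B hB hqM)
    (riemannPkg_FMid B hB hqM) (finrank_FMid B hB hqM) (fMid_pos B hB hqM)
    (fMid_natCast_ne_zero B hB hqM) v (by rw [midDatum_δ]; exact hv)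
  rw [midDatum_u] at h
  exact h.trans (congrArg v.ord (midDatum_δ B hB hqM))

/-! ### The degree: `fMid ≤ midDeg q`, coprimality of `ord_v δ` from local witnesses -/

include hB hqM in
/-- `fMid ≤ midDeg q` (from (C-IG-SQ): `(θ j̃)^{midDeg q} ∈ k(j̃)`) -/
theorem fMid_le_midDeg : fMid M B hB ≤ midDeg q := by
  haveI := charP_kB B hB
  obtain ⟨T, N, hT, -, h⟩ := exists_poly_thetaL_pow_midDeg q kB
  have hj : jqModC kB ∈ FtM := jqModC_mem_full kB M
  have hmem : ∀ P : Polynomial kB, Polynomial.aeval (jqModC kB) P ∈ FtM := fun P => by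
    have h1 : Algebra.adjoin kB {jqModC kB} ≤ (modularFunctionFieldFullC kB M).toSubalgebra :=
      Algebra.adjoin_le (Set.singleton_subset_iff.2 hj)
    apply h1
    rw [Algebra.adjoin_singleton_eq_range_aeval]
    exact ⟨P, rfl⟩
  set r : FtM := ⟨Polynomial.aeval (jqModC kB) N, hmem N⟩ / ⟨Polynomial.aeval (jqModC kB) T, hmem T⟩
    with hr
  have hrθ : thetaL kB (jqModC kB) ^ midDeg q = algebraMap FtM (LaurentSeries kB) r := by
    rw [hr, map_div₀]
    show _ = Polynomial.aeval (jqModC kB) N / Polynomial.aeval (jqModC kB) T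
    rw [eq_div_iff hT, h]
  have hpos : midDeg q ≠ 0 := (midDeg_pos hq.out).ne'
  have hroot : Polynomial.aeval (thetaL kB (jqModC kB))
      (X ^ midDeg q - Polynomial.C r : FtM[X]) = 0 := by
    rw [map_sub, map_pow, aeval_X, aeval_C, hrθ, sub_self]
  have hdeg := natDegree_le_natDegree
    (minpoly.min FtM (thetaL kB (jqModC kB)) (monic_X_pow_sub_C r hpos) hroot)
  rwa [natDegree_X_pow_sub_C, (natDegree_minpoly_fullC B hB hqM).2] at hdeg

include hB hqM in
theorem fMid_natCast_ne_zero_kB : ((fMid M B hB : ℕ) : kB) ≠ 0 :=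
  natCast_ne_zero_of_dvd B hB (fMid_dvd' B hB hqM)

/-- **coprimality from a local witness** (helper29's `isCoprime_ord_of_pow` at the mids): `y ≠ 0`
with `y^{q-1} = c ∈ F̃_M`, `ord_v c = ((q-1)/fMid) · a`, `(a, fMid) = 1`. -/
theorem isCoprime_ord_deltaMid_of_witness (v : Place kB FtM) {y : FMid M B} (hy0 : y ≠ 0)
    {c : FtM} (hy : y ^ (q - 1) = algebraMap FtM (FMid M B) c) {a : ℤ}
    (hvc : v.ord c = (((q - 1) / fMid M B hB : ℕ) : ℤ) * a)
    (ha : IsCoprime a (fMid M B hB : ℤ)) :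
    IsCoprime (v.ord (deltaMid B hB hqM)) (fMid M B hB : ℤ) := by
  have hdvd := fMid_dvd' B hB hqM
  have hmul : fMid M B hB * ((q - 1) / fMid M B hB) = q - 1 := Nat.mul_div_cancel' hdvd
  have hq1 : 0 < q - 1 := by have := hq.out.two_le; omega
  have hm : 0 < (q - 1) / fMid M B hB := Nat.div_pos (Nat.le_of_dvd hq1 hdvd) (fMid_pos B hB hqM)
  obtain ⟨ζ, hζ⟩ := exists_primitiveRoot_kB B hB (dvd_refl (q - 1))
  have h := isCoprime_ord_of_pow (midDatum B hB hqM) (fMid_pos B hB hqM)
    (fMid_natCast_ne_zero_kB B hB hqM) hy0 hm (c := c) (by rw [hmul]; exact hy)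
    (ζN := ζ) (by rw [hmul]; exact hζ) v hvc ha
  rwa [midDatum_δ] at h

include hB hqM in
/-- `(q-1)/fMid = 2` for `q` odd -/
theorem two_le_div_fMid (h2 : q ≠ 2) : 2 ≤ (q - 1) / fMid M B hB := by
  have hle := fMid_le_midDeg B hB hqM
  rw [midDeg_of_ne_two h2] at hle
  have hpos := fMid_pos B hB hqM
  rw [Nat.le_div_iff_mul_le hpos]
  have := Nat.div_mul_le_self (q - 1) 2
  nlinarith

include hB hqM in
theorem fMid_eq_one_of_two (h2 : q = 2) : fMid M B hB = 1 := by
  have h := fMid_dvd' B hB hqM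
  have h1 : q - 1 = 1 := by omega
  rw [h1] at h
  exact Nat.dvd_one.1 h

/-- **coprimality from a local witness of order `−2`**: `y ≠ 0` with `y^{q-1} = c ∈ F̃_M`,
`ord_v c = −2` (a supersingular point). -/
theorem isCoprime_ord_deltaMid_of_ord_neg_two (v : Place kB FtM) {y : FMid M B} (hy0 : y ≠ 0)
    {c : FtM} (hy : y ^ (q - 1) = algebraMap FtM (FMid M B) c) (hvc : v.ord c = -2) :
    IsCoprime (v.ord (deltaMid B hB hqM)) (fMid M B hB : ℤ) := by
  by_cases h2 : q = 2
  · rw [fMid_eq_one_of_two B hB hqM h2, Nat.cast_one]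
    exact isCoprime_one_right
  have hmul : fMid M B hB * ((q - 1) / fMid M B hB) = q - 1 :=
    Nat.mul_div_cancel' (fMid_dvd' B hB hqM)
  obtain ⟨ζ, hζ⟩ := exists_primitiveRoot_kB B hB (dvd_refl (q - 1))
  have h := isCoprime_ord_of_pow_of_ord_neg_two (midDatum B hB hqM) (fMid_pos B hB hqM)
    (fMid_natCast_ne_zero_kB B hB hqM) hy0 (two_le_div_fMid B hB hqM h2) (c := c)
    (by rw [hmul]; exact hy) (ζN := ζ) (by rw [hmul]; exact hζ) v hvc
  rwa [midDatum_δ] at h

include hqM in
/-- **`fMid = midDeg q`** as soon as there is ONE local witness of order `−2` (closing the gap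
flagged in `FibreProdMidGal`, finding #1084). -/
theorem fMid_eq_midDeg_of_ord_neg_two (v : Place kB FtM) {y : FMid M B} (hy0 : y ≠ 0)
    {c : FtM} (hy : y ^ (q - 1) = algebraMap FtM (FMid M B) c) (hvc : v.ord c = -2) :
    fMid M B hB = midDeg q := by
  by_cases h2 : q = 2
  · rw [fMid_eq_one_of_two B hB hqM h2, h2, midDeg_two]
  have hmul : fMid M B hB * ((q - 1) / fMid M B hB) = q - 1 :=
    Nat.mul_div_cancel' (fMid_dvd' B hB hqM)
  obtain ⟨ζ, hζ⟩ := exists_primitiveRoot_kB B hB (dvd_refl (q - 1))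
  have h := eq_two_of_ord_neg_two (midDatum B hB hqM) (fMid_pos B hB hqM)
    (fMid_natCast_ne_zero_kB B hB hqM) hy0 (two_le_div_fMid B hB hqM h2) (c := c)
    (by rw [hmul]; exact hy) (ζN := ζ) (by rw [hmul]; exact hζ) v hvc
  rw [h] at hmul
  rw [midDeg_of_ne_two h2]
  omega

/-- the global witness: `y = θ j̃`, `c = γ` -/
theorem isCoprime_ord_deltaMid_of_ord_gamma (v : Place kB FtM)
    (hγ : v.ord (gammaMid B hB hqM) = -2) :
    IsCoprime (v.ord (deltaMid B hB hqM)) (fMid M B hB : ℤ) :=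
  isCoprime_ord_deltaMid_of_ord_neg_two B hB hqM v (thetaMid_ne_zero B) (thetaMid_pow B hB hqM) hγ

include hqM in
/-- `(q-1)/fMid = 2` for `q` odd, from ONE local witness of order `−2` -/
theorem div_fMid_eq_two_of_ord_neg_two (h2 : q ≠ 2) (v : Place kB FtM) {y : FMid M B}
    (hy0 : y ≠ 0) {c : FtM} (hy : y ^ (q - 1) = algebraMap FtM (FMid M B) c)
    (hvc : v.ord c = -2) : (q - 1) / fMid M B hB = 2 := by
  have hmul : fMid M B hB * ((q - 1) / fMid M B hB) = q - 1 :=
    Nat.mul_div_cancel' (fMid_dvd' B hB hqM)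
  obtain ⟨ζ, hζ⟩ := exists_primitiveRoot_kB B hB (dvd_refl (q - 1))
  exact eq_two_of_ord_neg_two (midDatum B hB hqM) (fMid_pos B hB hqM)
    (fMid_natCast_ne_zero_kB B hB hqM) hy0 (two_le_div_fMid B hB hqM h2) (c := c)
    (by rw [hmul]; exact hy) (ζN := ζ) (by rw [hmul]; exact hζ) v hvc

/-- `ord_v δ = −1` at a point with `ord_v γ = −2` (`q` odd): the Kummer generator `θ j̃` has a
SIMPLE POLE at the Kummer place over `v` (`ord_pMidOver_thetaMid`). -/
theorem ord_deltaMid_of_ord_gamma (h2 : q ≠ 2) (v : Place kB FtM)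
    (hγ : v.ord (gammaMid B hB hqM) = -2) : v.ord (deltaMid B hB hqM) = -1 := by
  have hm := div_fMid_eq_two_of_ord_neg_two B hB hqM h2 v (thetaMid_ne_zero B)
    (thetaMid_pow B hB hqM) hγ
  have h := deltaMid_pow B hB hqM
  rw [hm] at h
  have h1 : v.ord (gammaMid B hB hqM) = 2 * v.ord (deltaMid B hB hqM) := by
    rw [← h, ← zpow_natCast, v.ord_zpow]
    norm_num
  rw [hγ] at h1
  linarith

/-! ### The genus bound -/

include hB hqM in
/-- **(G2-MID) Riemann–Hurwitz inequality for the middle components**: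
`fMid (2 g(F̃_M) − 2) + |T| (fMid − 1) ≤ 2 g(F̃_M(θ j̃)) − 2` for every finite set `T` of points of
`F̃_M` with `(ord_v δ, fMid) = 1`. -/
theorem two_genus_ge_mid (T : Finset (Place kB FtM))
    (hT : ∀ v ∈ T, IsCoprime (v.ord (deltaMid B hB hqM)) (fMid M B hB : ℤ)) :
    (fMid M B hB : ℤ) * (2 * (genusFF kB FtM : ℤ) - 2) +
        (T.card : ℤ) * ((fMid M B hB : ℤ) - 1) ≤
      2 * (genusFF kB (FMid M B) : ℤ) - 2 := by
  haveI : FiniteDimensional FtM (FMid M B) := finiteDimensional_FMid B hB hqM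
  exact two_genus_ge (midDatum B hB hqM) (riemannPkg_FtM B hB hqM) (riemannPkg_FMid B hB hqM)
    (finrank_FMid B hB hqM) (fMid_pos B hB hqM) (fMid_natCast_ne_zero B hB hqM) T
    (fun v hv => by rw [midDatum_δ]; exact hT v hv)

end Fermat.Agent.BR3.KummerGenus.MidInst
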