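import Fermat.Agent.BR3.KummerGenus.MidInst
import Fermat.Agent.BR3.SDD.Fields
import Fermat.Agent.BR3.GenusHg

/-!
# Program C (S36), nodes (W3-MID) + (G2-MID): the family shapes for the skeleton `SDD.Input`

The residue field of every middle component of `S″` is `FMid M B` (helper6); with
`FM := fun _ : Mid => FMid M B` the Kummer place of the node `nk e s` on `mid (comp e s)` is
`pMid e` = THE place over the supersingular point `z e` of `F̃_M` (independent of `s`).

* `midPlace`, `hK_of_const` : bookkeeping for a constant family (the hypothesis `hK` of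
  `SepNBranchInj.branch_injective_of` = `hMid` of `SDD.branch_injective_of`);
* `pMid B hB hqM z hcop e`, `pMid_restrict`, `eq_pMid`, `pMid_injective`,
  `ramificationIndex_pMid` (= `fMid`), `ord_pMid_algebraMap`, `ord_pMid_thetaMid`,
  `ord_pMid_thetaMid_eq_neg_one`, `hK_mid`;
* `hRH_mid`, `hd_mid` : the inputs `hRH`, `hd` of `GenusHgPlug.hg_of_input_modular_tot` with
  `d i := fMid`.
-/

set_option autoImplicit false
set_option linter.style.haveILetI false
set_option linter.unusedSectionVars false

noncomputable section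

set_option synthInstance.maxHeartbeats 400000

namespace Fermat.Agent.BR3.KummerGenus.MidFamily

open AlgebraicCurve Fermat.Agent.BR3.SDD

/-! ### Bookkeeping for a constant family of residue fields on the middle components -/

section Generic

variable {k : Type*} [Field k] {Mid SSp KP : Type} {FH : Bool → Type} {E : Type}
  {FZ : SSp → Type} [∀ b, Field (FH b)] [Field E] [∀ e, Field (FZ e)]
  [∀ b, Algebra k (FH b)] [Algebra k E] [∀ e, Algebra k (FZ e)]

/-- the place of a point lying on a middle component -/
def midPlace : (Σ v, Place k (FtOf FH (fun _ : Mid => E) FZ v)) → Option (Place k E)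
  | ⟨Sum.inl (Sum.inr _), P⟩ => some P
  | _ => none

/-- **the hypothesis `hK` of `SepNBranchInj.branch_injective_of`** (equivalently `hMid` of
`SDD.branch_injective_of`) when all middle components have the same residue field `E` and the
Kummer place of `nk e s` is `p e` (independent of `s`), `p` injective, `comp e` injective. -/
theorem hK_of_const (comp : SSp → KP → Mid) (hcomp : ∀ e, Function.Injective (comp e))
    (p : SSp → Place k E) (hp : Function.Injective p) (e : SSp) (s : KP) (e' : SSp) (s' : KP)
    (h : (⟨mid (comp e s), p e⟩ : Σ v, Place k (FtOf FH (fun _ : Mid => E) FZ v)) =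
      ⟨mid (comp e' s'), p e'⟩) : e = e' ∧ s = s' := by
  have h1 : some (p e) = some (p e') := congrArg midPlace h
  have h2 : e = e' := hp (Option.some.inj h1)
  subst h2
  have h3 : mid (SSp := SSp) (comp e s) = mid (comp e s') := congrArg Sigma.fst h
  exact ⟨rfl, hcomp e (Sum.inr.inj (Sum.inl.inj h3))⟩

end Generic

/-! ### The Kummer places of the middle components over the supersingular points -/

section Modular

open ModularCurve Fermat.Agent.X0 Fermat.Agent.BR3.FibreProd Fermat.Agent.BR3.IgSq
open Fermat.Agent.BR3.KummerGenus.MidInst Fermat.Agent.Red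

variable {M q : ℕ} [NeZero M] [hq : Fact q.Prime]
variable (B : ValuationSubring (AlgebraicClosure ℚ)) (hB : B.LiesOverPrime q) (hqM : ¬ q ∣ M)

local notation "kB" => IsLocalRing.ResidueField B
local notation "FtM" => modularFunctionFieldFullC (IsLocalRing.ResidueField B) M

/-- (shortcut instances: the search through the generic instances costs seconds per declaration) -/
local instance (priority := 100000) instAlgKFtFam : Algebra kB FtM := inferInstance
local instance (priority := 100000) instAlgKFMidFam : Algebra kB (FMid M B) := inferInstance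
local instance (priority := 100000) instAlgFtFMidFam : Algebra FtM (FMid M B) := inferInstance
local instance (priority := 100000) instTowerMidFam : IsScalarTower kB FtM (FMid M B) :=
  inferInstance

variable {SSp : Type}

/-- **`s₁ (nk e s)`**: the Kummer place of (every) middle component over the supersingular point
`z e` of `F̃_M`. -/
def pMid (z : SSp → Place kB FtM)
    (hcop : ∀ e, IsCoprime ((z e).ord (deltaMid B hB hqM)) (fMid M B hB : ℤ)) (e : SSp) : Place kB (FMid M B) := pMidOver B hB hqM (z e) (hcop e)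

theorem pMid_restrict [FiniteDimensional FtM (FMid M B)] (z : SSp → Place kB FtM)
    (hcop : ∀ e, IsCoprime ((z e).ord (deltaMid B hB hqM)) (fMid M B hB : ℤ)) (e : SSp) :
    (pMid B hB hqM z hcop e).restrict FtM = z e :=
  pMidOver_restrict B hB hqM (z e) (hcop e)

/-- uniqueness: the Kummer place is the ONLY place over `z e` -/
theorem eq_pMid [FiniteDimensional FtM (FMid M B)] (z : SSp → Place kB FtM)
    (hcop : ∀ e, IsCoprime ((z e).ord (deltaMid B hB hqM)) (fMid M B hB : ℤ)) (e : SSp) {w : Place kB (FMid M B)}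
    (hw : w.restrict FtM = z e) : w = pMid B hB hqM z hcop e :=
  eq_pMidOver B hB hqM (z e) (hcop e) hw

theorem pMid_injective (z : SSp → Place kB FtM)
    (hcop : ∀ e, IsCoprime ((z e).ord (deltaMid B hB hqM)) (fMid M B hB : ℤ)) (hz : Function.Injective z) :
    Function.Injective (pMid B hB hqM z hcop) := fun e e' h =>
  hz (pMidOver_injective B hB hqM (hcop e) (hcop e') h)

/-- total ramification at the Kummer places: `e = fMid` -/
theorem ramificationIndex_pMid [FiniteDimensional FtM (FMid M B)] (z : SSp → Place kB FtM)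
    (hcop : ∀ e, IsCoprime ((z e).ord (deltaMid B hB hqM)) (fMid M B hB : ℤ)) (e : SSp) :
    (pMid B hB hqM z hcop e).ramificationIndex FtM = fMid M B hB :=
  ramificationIndex_pMidOver B hB hqM (z e) (hcop e)

theorem ord_pMid_algebraMap (z : SSp → Place kB FtM)
    (hcop : ∀ e, IsCoprime ((z e).ord (deltaMid B hB hqM)) (fMid M B hB : ℤ)) (e : SSp) (x : FtM) :
    (pMid B hB hqM z hcop e).ord (algebraMap FtM (FMid M B) x) =
      (fMid M B hB : ℤ) * (z e).ord x :=
  ord_pMidOver_algebraMap B hB hqM (z e) (hcop e) x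

theorem ord_pMid_thetaMid (z : SSp → Place kB FtM)
    (hcop : ∀ e, IsCoprime ((z e).ord (deltaMid B hB hqM)) (fMid M B hB : ℤ)) (e : SSp) :
    (pMid B hB hqM z hcop e).ord (thetaMid B) = (z e).ord (deltaMid B hB hqM) :=
  ord_pMidOver_thetaMid B hB hqM (z e) (hcop e)

/-- the Kummer generator has a simple pole at the Kummer places (`q` odd) -/
theorem ord_pMid_thetaMid_eq_neg_one (z : SSp → Place kB FtM)
    (hcop : ∀ e, IsCoprime ((z e).ord (deltaMid B hB hqM)) (fMid M B hB : ℤ)) (h2 : q ≠ 2) (e : SSp)
    (hγ : (z e).ord (gammaMid B hB hqM) = -2) :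
    (pMid B hB hqM z hcop e).ord (thetaMid B) = -1 := by
  rw [ord_pMid_thetaMid, ord_deltaMid_of_ord_gamma B hB hqM h2 (z e) hγ]

/-- **the hypothesis `hK` of `SepNBranchInj.branch_injective_of`** for
`Ft := FtOf FH (fun _ => FMid M B) FZ`, `s₁ (nk e s) := pMid e`. -/
theorem hK_mid {Mid KP : Type} {FH : Bool → Type} {FZ : SSp → Type}
    [∀ b, Field (FH b)] [∀ e, Field (FZ e)] [∀ b, Algebra kB (FH b)] [∀ e, Algebra kB (FZ e)]
    (z : SSp → Place kB FtM)
    (hcop : ∀ e, IsCoprime ((z e).ord (deltaMid B hB hqM)) (fMid M B hB : ℤ))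
    (comp : SSp → KP → Mid) (hcomp : ∀ e, Function.Injective (comp e))
    (hz : Function.Injective z) (e : SSp) (s : KP) (e' : SSp) (s' : KP)
    (h : (⟨mid (comp e s), pMid B hB hqM z hcop e⟩ :
        Σ v, Place kB (FtOf FH (fun _ : Mid => FMid M B) FZ v)) =
      ⟨mid (comp e' s'), pMid B hB hqM z hcop e'⟩) : e = e' ∧ s = s' :=
  hK_of_const comp hcomp _ (pMid_injective B hB hqM z hcop hz) e s e' s' h

/-! ### The genus inputs of `GenusHgPlug.hg_of_input_modular_tot` -/

/-- **`hRH`** of `GenusHgPlug.hg_of_input_modular_tot` with `d i := fMid`: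
`fMid (2 g(F̄_M) − 2) + #SSp (fMid − 1) ≤ 2 g(FMid) − 2`. -/
theorem hRH_mid [Fintype SSp] (z : SSp → Place kB FtM)
    (hcop : ∀ e, IsCoprime ((z e).ord (deltaMid B hB hqM)) (fMid M B hB : ℤ)) (hz : Function.Injective z) :
    (fMid M B hB : ℤ) * (2 * (genusFF Kb (Fb M) : ℤ) - 2) +
        (Fintype.card SSp : ℤ) * ((fMid M B hB : ℤ) - 1) ≤
      2 * (genusFF kB (FMid M B) : ℤ) - 2 := by
  classical
  have h := two_genus_ge_mid B hB hqM (Finset.univ.image z) (fun v hv => by
    obtain ⟨e, -, rfl⟩ := Finset.mem_image.1 hv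
    exact hcop e)
  rw [Finset.card_image_of_injective _ hz, Finset.card_univ,
    Fermat.Agent.BR3.GenusHg.genusFF_modL_eq_genusFF_bar M q B hB hqM] at h
  exact h

/-- **`hd`** of `GenusHgPlug.hg_of_input_modular_tot` with `d i := fMid`: `Σ_i fMid = q − 1`. -/
theorem hd_mid {ζ : Kbˣ} (hζ : IsPrimitiveRoot ζ q) :
    ∑ _i : Mid B hB hqM hζ, (fMid M B hB : ℤ) = (q : ℤ) - 1 := by
  rw [Finset.sum_const, Finset.card_univ, nsmul_eq_mul]
  have h := card_mid_mul B hB hqM hζ
  have hq1 : 1 ≤ q := hq.out.one_lt.le
  have h1 : ((Fintype.card (Mid B hB hqM hζ) * fMid M B hB : ℕ) : ℤ) = ((q - 1 : ℕ) : ℤ) := by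
    rw [h]
  rw [Nat.cast_mul, Nat.cast_sub hq1, Nat.cast_one] at h1
  exact h1

end Modular

end Fermat.Agent.BR3.KummerGenus.MidFamily
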