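import Fermat.Agent.BR3.KummerGenus.MidFamily

/-!
# Program C (S36), nodes (W3-MID) + (G2-MID): orders of radicals at the Kummer places of the mids

At an ELLIPTIC supersingular point `e` the global generator `θ j̃` of `FMid M B` need not have a
simple pole at the Kummer place over `e`; the local witness `y` (`y ^ (q-1) = c ∈ F̃_M`,
`ord_e c = −2`, helper29's `MidKummerParam`) does:

* `mul_ord_pMidOver_of_pow` : `(q-1) · ord_{pMidOver v} y = fMid · ord_v c`;
* `ord_pMidOver_eq_neg_one` (`q` odd, `ord_v c = −2`) : `ord_{pMidOver v} y = −1`, so `y⁻¹` is a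
  local parameter at the Kummer place (`ord_pMidOver_inv_eq_one`);
* the same for the family `pMid`.
-/

set_option autoImplicit false
set_option linter.style.haveILetI false
set_option linter.unusedSectionVars false

noncomputable section

set_option synthInstance.maxHeartbeats 400000

namespace Fermat.Agent.BR3.KummerGenus.MidInst

open ModularCurve AlgebraicCurve Fermat.Agent.X0 Fermat.Agent.BR3.FibreProd Fermat.Agent.BR3.IgSq
open Fermat.Agent.Red

variable {M q : ℕ} [NeZero M] [hq : Fact q.Prime]
variable (B : ValuationSubring (AlgebraicClosure ℚ)) (hB : B.LiesOverPrime q) (hqM : ¬ q ∣ M)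

local notation "kB" => IsLocalRing.ResidueField B
local notation "FtM" => modularFunctionFieldFullC (IsLocalRing.ResidueField B) M

/-- (shortcut instances: the search through the generic instances costs seconds per declaration) -/
local instance (priority := 100000) instAlgKFtOrd : Algebra kB FtM := inferInstance
local instance (priority := 100000) instAlgKFMidOrd : Algebra kB (FMid M B) := inferInstance
local instance (priority := 100000) instAlgFtFMidOrd : Algebra FtM (FMid M B) := inferInstance
local instance (priority := 100000) instTowerMidOrd : IsScalarTower kB FtM (FMid M B) :=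
  inferInstance

/-- `(q-1) · ord_w y = fMid · ord_v c` at the Kummer place `w` over `v`, for `y ^ (q-1) = c`. -/
theorem mul_ord_pMidOver_of_pow (v : Place kB FtM)
    (hv : IsCoprime (v.ord (deltaMid B hB hqM)) (fMid M B hB : ℤ)) {y : FMid M B} {c : FtM}
    (hy : y ^ (q - 1) = algebraMap FtM (FMid M B) c) :
    ((q - 1 : ℕ) : ℤ) * (pMidOver B hB hqM v hv).ord y = (fMid M B hB : ℤ) * v.ord c := by
  rw [← ord_pMidOver_algebraMap B hB hqM v hv c, ← hy, ← zpow_natCast, Place.ord_zpow]

/-- **the local witness has a SIMPLE POLE at the Kummer place** (`q` odd) -/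
theorem ord_pMidOver_eq_neg_one (h2 : q ≠ 2) (v : Place kB FtM)
    (hv : IsCoprime (v.ord (deltaMid B hB hqM)) (fMid M B hB : ℤ)) {y : FMid M B} (hy0 : y ≠ 0)
    {c : FtM} (hy : y ^ (q - 1) = algebraMap FtM (FMid M B) c) (hvc : v.ord c = -2) :
    (pMidOver B hB hqM v hv).ord y = -1 := by
  have h := mul_ord_pMidOver_of_pow B hB hqM v hv hy
  have hm := div_fMid_eq_two_of_ord_neg_two B hB hqM h2 v hy0 hy hvc
  have hmul : fMid M B hB * ((q - 1) / fMid M B hB) = q - 1 :=
    Nat.mul_div_cancel' (fMid_dvd' B hB hqM)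
  rw [hm] at hmul
  have hpos : (0 : ℤ) < (fMid M B hB : ℤ) := by exact_mod_cast fMid_pos B hB hqM
  rw [hvc, ← hmul] at h
  push_cast at h
  have h3 : (fMid M B hB : ℤ) * (2 * (pMidOver B hB hqM v hv).ord y) =
      (fMid M B hB : ℤ) * (-2) := by linarith
  have h4 := mul_left_cancel₀ hpos.ne' h3
  linarith

/-- `y⁻¹` is a local parameter at the Kummer place (`q` odd) -/
theorem ord_pMidOver_inv_eq_one (h2 : q ≠ 2) (v : Place kB FtM)
    (hv : IsCoprime (v.ord (deltaMid B hB hqM)) (fMid M B hB : ℤ)) {y : FMid M B} (hy0 : y ≠ 0)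
    {c : FtM} (hy : y ^ (q - 1) = algebraMap FtM (FMid M B) c) (hvc : v.ord c = -2) :
    (pMidOver B hB hqM v hv).ord y⁻¹ = 1 := by
  rw [Place.ord_inv, ord_pMidOver_eq_neg_one B hB hqM h2 v hv hy0 hy hvc, neg_neg]

end Fermat.Agent.BR3.KummerGenus.MidInst

namespace Fermat.Agent.BR3.KummerGenus.MidFamily

open ModularCurve AlgebraicCurve Fermat.Agent.X0 Fermat.Agent.BR3.FibreProd Fermat.Agent.BR3.IgSq
open Fermat.Agent.BR3.KummerGenus.MidInst Fermat.Agent.Red

variable {M q : ℕ} [NeZero M] [hq : Fact q.Prime]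
variable (B : ValuationSubring (AlgebraicClosure ℚ)) (hB : B.LiesOverPrime q) (hqM : ¬ q ∣ M)

local notation "kB" => IsLocalRing.ResidueField B
local notation "FtM" => modularFunctionFieldFullC (IsLocalRing.ResidueField B) M

local instance (priority := 100000) instAlgKFtOrd' : Algebra kB FtM := inferInstance
local instance (priority := 100000) instAlgKFMidOrd' : Algebra kB (FMid M B) := inferInstance
local instance (priority := 100000) instAlgFtFMidOrd' : Algebra FtM (FMid M B) := inferInstance
local instance (priority := 100000) instTowerMidOrd' : IsScalarTower kB FtM (FMid M B) :=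
  inferInstance

variable {SSp : Type}

/-- the local witness at `e` has a simple pole at `pMid e` (`q` odd) -/
theorem ord_pMid_eq_neg_one (z : SSp → Place kB FtM)
    (hcop : ∀ e, IsCoprime ((z e).ord (deltaMid B hB hqM)) (fMid M B hB : ℤ)) (h2 : q ≠ 2)
    (e : SSp) {y : FMid M B} (hy0 : y ≠ 0) {c : FtM}
    (hy : y ^ (q - 1) = algebraMap FtM (FMid M B) c) (hvc : (z e).ord c = -2) :
    (pMid B hB hqM z hcop e).ord y = -1 :=
  ord_pMidOver_eq_neg_one B hB hqM h2 (z e) (hcop e) hy0 hy hvc

/-- … and its inverse is a local parameter there -/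
theorem ord_pMid_inv_eq_one (z : SSp → Place kB FtM)
    (hcop : ∀ e, IsCoprime ((z e).ord (deltaMid B hB hqM)) (fMid M B hB : ℤ)) (h2 : q ≠ 2)
    (e : SSp) {y : FMid M B} (hy0 : y ≠ 0) {c : FtM}
    (hy : y ^ (q - 1) = algebraMap FtM (FMid M B) c) (hvc : (z e).ord c = -2) :
    (pMid B hB hqM z hcop e).ord y⁻¹ = 1 :=
  ord_pMidOver_inv_eq_one B hB hqM h2 (z e) (hcop e) hy0 hy hvc

/-- the hypothesis `hcop` of `pMid` from local witnesses at every `e` -/
theorem hcop_of_witness (z : SSp → Place kB FtM)
    (hw : ∀ e, ∃ (y : FMid M B) (c : FtM), y ≠ 0 ∧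
      y ^ (q - 1) = algebraMap FtM (FMid M B) c ∧ (z e).ord c = -2) (e : SSp) :
    IsCoprime ((z e).ord (deltaMid B hB hqM)) (fMid M B hB : ℤ) := by
  obtain ⟨y, c, hy0, hy, hvc⟩ := hw e
  exact isCoprime_ord_deltaMid_of_ord_neg_two B hB hqM (z e) hy0 hy hvc

end Fermat.Agent.BR3.KummerGenus.MidFamily
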