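import Mathlib
import Fermat.Agent.BR3.KummerGenus.TotalRam
import Fermat.Agent.BR3.KummerGenus.Coprime
import Fermat.Agent.BR3.RiemannPkgExt
import Fermat.Agent.FF.PreludeBridge

/-!
# Program C (S36), nodes (W3-MID) + (G2-MID), consumer form: the Kummer places, the Riemann package
and the genus bound of a Kummer extension, from the Riemann packages alone

`E/κ` a finite extension of function fields over `k` with Riemann packages `hκ`, `hE`,
`X : KummerDatum k κ E n`, `[E : κ] = n`, `n ≠ 0` in `κ`.  All the class hypotheses of
`KummerGenus/TotalRam` (`HasPrincipalDivisors`, `FundamentalIdentity`) are produced here.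

* `placeOver X hκ hE hfr hn hnκ v hv : Place k E` : THE place over `v` when `(ord_v δ, n) = 1`;
  `placeOver_restrict`, `eq_placeOver`, `ramificationIndex_placeOver`, `ord_placeOver_algebraMap`,
  `ord_placeOver_u`, `placeOver_injective`;
* `two_genus_ge` : `n (2 g_κ − 2) + |T| (n − 1) ≤ 2 g_E − 2` for a finite set `T` of such points;
* `riemannPkg_of_kummer_modL` : the Riemann package of a Kummer extension (degree prime to `ℓ`) of
  the function field of `X₀(N)` over the residue field of a valuation ring of `ℚ̄` over `ℓ ∤ N`.
-/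

set_option autoImplicit false
set_option linter.unusedSectionVars false
set_option linter.style.haveILetI false

noncomputable section

namespace Fermat.Agent.BR3.KummerGenus

open AlgebraicCurve Fermat.Agent.Red Finset

section Pkg

variable {k κ E : Type*} [Field k] [Field κ] [Field E] [Algebra k κ] [Algebra k E] [Algebra κ E]
  [IsScalarTower k κ E] [FiniteDimensional κ E]
variable {n : ℕ} (X : KummerDatum k κ E n) (hκ : RiemannPkg k κ) (hE : RiemannPkg k E)
  (hfr : Module.finrank κ E = n) (hn : 0 < n) (hnκ : (n : κ) ≠ 0)

include X hE hnκ in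
/-- the fundamental identity `Σ e f = n` of the Kummer extension -/
theorem fundamentalIdentity_of_kummer :
    haveI := hE.principal
    FundamentalIdentity k κ E := by
  haveI := hE.principal
  haveI := isSeparable_of_kummerDatum X hnκ
  exact Fermat.Agent.FF.fundamentalIdentity

/-- **THE place of `E` over a point `v` with `(ord_v δ, n) = 1`.** -/
def placeOver (v : Place k κ) (hv : IsCoprime (v.ord X.δ) (n : ℤ)) : Place k E :=
  haveI := hκ.principal
  haveI := hE.principal
  haveI : FundamentalIdentity k κ E := fundamentalIdentity_of_kummer X hE hnκ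
  kummerPlace X hfr hn hκ.deg_one hE.deg_one v hv

theorem placeOver_restrict (v : Place k κ) (hv : IsCoprime (v.ord X.δ) (n : ℤ)) :
    (placeOver X hκ hE hfr hn hnκ v hv).restrict κ = v := by
  haveI := hκ.principal
  haveI := hE.principal
  haveI : FundamentalIdentity k κ E := fundamentalIdentity_of_kummer X hE hnκ
  exact kummerPlace_restrict X hfr hn hκ.deg_one hE.deg_one v hv

theorem eq_placeOver (v : Place k κ) (hv : IsCoprime (v.ord X.δ) (n : ℤ)) {w : Place k E}
    (hw : w.restrict κ = v) : w = placeOver X hκ hE hfr hn hnκ v hv := by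
  haveI := hκ.principal
  haveI := hE.principal
  haveI : FundamentalIdentity k κ E := fundamentalIdentity_of_kummer X hE hnκ
  exact eq_kummerPlace X hfr hn hκ.deg_one hE.deg_one v hv hw

/-- the places over different points are different -/
theorem placeOver_injective {v v' : Place k κ} (hv : IsCoprime (v.ord X.δ) (n : ℤ))
    (hv' : IsCoprime (v'.ord X.δ) (n : ℤ))
    (h : placeOver X hκ hE hfr hn hnκ v hv = placeOver X hκ hE hfr hn hnκ v' hv') : v = v' := by
  rw [← placeOver_restrict X hκ hE hfr hn hnκ v hv, h, placeOver_restrict]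

/-- total ramification -/
theorem ramificationIndex_placeOver (v : Place k κ) (hv : IsCoprime (v.ord X.δ) (n : ℤ)) :
    (placeOver X hκ hE hfr hn hnκ v hv).ramificationIndex κ = n := by
  haveI := hκ.principal
  haveI := hE.principal
  haveI : FundamentalIdentity k κ E := fundamentalIdentity_of_kummer X hE hnκ
  exact ramificationIndex_kummerPlace X hfr hn hκ.deg_one hE.deg_one v hv

theorem ord_placeOver_algebraMap (v : Place k κ) (hv : IsCoprime (v.ord X.δ) (n : ℤ)) (x : κ) :
    (placeOver X hκ hE hfr hn hnκ v hv).ord (algebraMap κ E x) = (n : ℤ) * v.ord x := by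
  haveI := hκ.principal
  haveI := hE.principal
  haveI : FundamentalIdentity k κ E := fundamentalIdentity_of_kummer X hE hnκ
  exact ord_kummerPlace_algebraMap X hfr hn hκ.deg_one hE.deg_one v hv x

theorem ord_placeOver_u (v : Place k κ) (hv : IsCoprime (v.ord X.δ) (n : ℤ)) :
    (placeOver X hκ hE hfr hn hnκ v hv).ord X.u = v.ord X.δ := by
  haveI := hκ.principal
  haveI := hE.principal
  haveI : FundamentalIdentity k κ E := fundamentalIdentity_of_kummer X hE hnκ
  exact ord_kummerPlace_u X hfr hn hκ.deg_one hE.deg_one v hv

include hκ hE hfr hn hnκ in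
/-- **Riemann–Hurwitz inequality**, from the Riemann packages alone:
`n (2 g_κ − 2) + |T| (n − 1) ≤ 2 g_E − 2` for a finite set `T` of points with `(ord_v δ, n) = 1`. -/
theorem two_genus_ge (T : Finset (Place k κ)) (hT : ∀ v ∈ T, IsCoprime (v.ord X.δ) (n : ℤ)) :
    (n : ℤ) * (2 * (genusFF k κ : ℤ) - 2) + (T.card : ℤ) * ((n : ℤ) - 1) ≤
      2 * (genusFF k E : ℤ) - 2 := by
  haveI := hκ.principal
  haveI := hE.principal
  haveI : FundamentalIdentity k κ E := fundamentalIdentity_of_kummer X hE hnκ
  exact riemann_hurwitz_ge_of_coprime X hκ hE hn hfr T hT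

end Pkg

/-! ### Kummer extensions of the function field of `X₀(N)` in characteristic `ℓ` -/

section ModL

open ModularCurve

set_option synthInstance.maxHeartbeats 400000 in
set_option maxHeartbeats 1600000 in
/-- **The Riemann package of a Kummer extension of degree prime to `ℓ`** of the function field of
`X₀(N)` over the residue field of a valuation subring of `ℚ̄` lying over `ℓ ∤ N`. -/
theorem riemannPkg_of_kummer_modL (N : ℕ) [NeZero N] {ℓ : ℕ} [hℓ : Fact ℓ.Prime]
    (hℓN : ¬ ℓ ∣ N) (A : ValuationSubring (AlgebraicClosure ℚ)) (hA : A.LiesOverPrime ℓ)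
    {L : Type*} [Field L] [Algebra (IsLocalRing.ResidueField A) L]
    [Algebra (modularFunctionFieldFullC (IsLocalRing.ResidueField A) N) L]
    [IsScalarTower (IsLocalRing.ResidueField A)
      (modularFunctionFieldFullC (IsLocalRing.ResidueField A) N) L]
    [FiniteDimensional (modularFunctionFieldFullC (IsLocalRing.ResidueField A) N) L]
    {n : ℕ}
    (X : KummerDatum (IsLocalRing.ResidueField A)
      (modularFunctionFieldFullC (IsLocalRing.ResidueField A) N) L n)
    (hn : ¬ ℓ ∣ n) :
    RiemannPkg (IsLocalRing.ResidueField A) L := by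
  haveI : CharP (IsLocalRing.ResidueField A) ℓ :=
    Fermat.Agent.Val.charP_residueField_of_liesOverPrime A hA
  haveI : CharP (modularFunctionFieldFullC (IsLocalRing.ResidueField A) N) ℓ :=
    charP_of_injective_algebraMap
      (algebraMap (IsLocalRing.ResidueField A)
        (modularFunctionFieldFullC (IsLocalRing.ResidueField A) N)).injective ℓ
  have hnκ : (n : modularFunctionFieldFullC (IsLocalRing.ResidueField A) N) ≠ 0 := by
    intro h0
    exact hn ((CharP.cast_eq_zero_iff _ ℓ n).mp h0)
  haveI := isSeparable_of_kummerDatum X hnκ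
  exact Fermat.Agent.BR3.RiemannPkgExt.riemannPkg_of_finite_separable_modL N hℓN A hA

end ModL

end Fermat.Agent.BR3.KummerGenus
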